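/-
MAZUR project (S15), node (F3), cell (A2) (helper14): TAME INERTIA IS CYCLIC, in the form used by
the descent.  Prefix `mzf3_`.

`A` a valuation ring of `Q̄` over the prime `p`, `I = A.inertiaSubgroupIn ℚ`, `r ≠ p` a prime.

* `mzf3_cyclic_of_inert` : a finite group acting faithfully on a number field `L1 ⊆ Q̄` by
  automorphisms which are inert at `O = A ∩ L1` (preserve `O`, trivial on its residue field) and of
  order prime to `p` is cyclic (helper11's `ti_isCyclic` on the DVR `O`).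
* `mzf3_cyclic` : `f : G_ℚ →* H` trivial on `Gal(Q̄/L1)` for a finite NORMAL `L1/ℚ`, with `f(I)`
  an `r`-group  ⟹  `f(I) ⊆ ⟨f τ⟩` for some `τ ∈ I`.
* `mzf3_cyclic'` : the same without normality of `L1`.
* `mzf3_cyclic_I`, `mzf3_cyclic_I'` : the same for homomorphisms `g : I →* H` defined on the
  inertia group only (e.g. cocycles with values in a trivial module).
-/
import Mathlib
import Fermat.Prelude.Def_FLTPrelim_Ramification
import Fermat.Agent.JT3.Algebra.TameInertia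
import Fermat.Agent.JT3.Descent.ConstDVR
import Fermat.Agent.S55.LevelFields

set_option autoImplicit false
set_option linter.unusedSectionVars false
set_option linter.style.haveILetI false

noncomputable section

namespace Fermat.Agent.MZ

open Fermat.Agent.JT3 Fermat.Agent.S55 IsLocalRing

local notation "Qb" => AlgebraicClosure ℚ
local notation "GQ" => (AlgebraicClosure ℚ ≃ₐ[ℚ] AlgebraicClosure ℚ)

section Inert

variable {K L1 : Type*} [Field K] [Field L1] [Algebra K L1] (O : ValuationSubring L1)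
  {G' : Type*} [Group G'] (ι : G' →* (L1 ≃ₐ[K] L1))
  (hpres : ∀ (g : G') (x : L1), x ∈ O → ι g x ∈ O)

/-- the action of `G'` on the valuation ring `O` -/
@[reducible] def mzf3_actO : MulSemiringAction G' ↥O where
  smul g x := ⟨ι g (x : L1), hpres g x x.2⟩
  one_smul x := Subtype.ext (by show ι 1 (x : L1) = x; rw [map_one]; rfl)
  mul_smul g h x := Subtype.ext (by
    show ι (g * h) (x : L1) = ι g (ι h (x : L1)); rw [map_mul]; rfl)
  smul_zero g := Subtype.ext (map_zero (ι g))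
  smul_add g x y := Subtype.ext (map_add (ι g) _ _)
  smul_one g := Subtype.ext (map_one (ι g))
  smul_mul g x y := Subtype.ext (map_mul (ι g) _ _)

theorem mzf3_actO_coe (g : G') (x : ↥O) :
    letI := mzf3_actO O ι hpres
    ((g • x : ↥O) : L1) = ι g (x : L1) := rfl

include hpres in
/-- **Tame inertia is cyclic** (valuation subring form). -/
theorem mzf3_cyclic_of_inert [IsDiscreteValuationRing ↥O] [Finite G']
    (hinj : Function.Injective ι)
    (hres : ∀ (g : G') (x : L1), x ∈ O → ι g x - x ∈ O.nonunits)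
    (hcard : IsUnit ((Nat.card G' : ℕ) : ↥O)) : IsCyclic G' := by
  letI := mzf3_actO O ι hpres
  haveI : FaithfulSMul G' ↥O := ⟨fun {g h} hgh => by
    apply hinj
    ext y
    by_cases hy : y ∈ O
    · exact congrArg Subtype.val (hgh ⟨y, hy⟩)
    · have hy' : y⁻¹ ∈ O := (O.mem_or_inv_mem y).resolve_left hy
      have := congrArg Subtype.val (hgh ⟨y⁻¹, hy'⟩)
      have h2 : ι g y⁻¹ = ι h y⁻¹ := this
      rw [map_inv₀, map_inv₀] at h2
      exact inv_injective h2⟩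
  refine ti_isCyclic (R := ↥O) (G := G') ?_ hcard
  intro g x
  have := hres g x x.2
  exact ValuationSubring.coe_mem_nonunits_iff.1 this

end Inert

section Units

variable (A : ValuationSubring Qb) {p : ℕ} (hA : A.LiesOverPrime p)
  (L1 : Type*) [Field L1] [Algebra L1 Qb]

include hA in
/-- a natural number prime to the residue characteristic is a unit of `A ∩ L1`. -/
theorem mzf3_isUnit_natCast {n : ℕ} (hn : n.Coprime p) :
    IsUnit ((n : ℕ) : ↥(A.comap (algebraMap L1 Qb))) := by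
  set O := A.comap (algebraMap L1 Qb) with hO
  have hpm : ((p : ℕ) : ↥O) ∈ maximalIdeal ↥O := by
    rw [← ValuationSubring.coe_mem_nonunits_iff]
    show ((p : ℕ) : L1) ∈ O.nonunits
    rw [dsc_mem_comap_nonunits_iff, map_natCast]
    exact hA
  -- Bezout
  have hb : IsCoprime (n : ℤ) (p : ℤ) := Nat.isCoprime_iff_coprime.2 hn
  obtain ⟨a, b, hab⟩ := hb
  have h1 : ((a : ℤ) : ↥O) * ((n : ℕ) : ↥O) + ((b : ℤ) : ↥O) * ((p : ℕ) : ↥O) = 1 := by
    have := congrArg (fun z : ℤ => (z : ↥O)) hab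
    simpa using this
  have h2 : ((a : ℤ) : ↥O) * ((n : ℕ) : ↥O) = 1 - ((b : ℤ) : ↥O) * ((p : ℕ) : ↥O) := by
    rw [← h1]; ring
  have h3 : IsUnit (((a : ℤ) : ↥O) * ((n : ℕ) : ↥O)) := by
    rw [h2]
    by_contra hnu
    have h4 : 1 - ((b : ℤ) : ↥O) * ((p : ℕ) : ↥O) ∈ maximalIdeal ↥O := (mem_maximalIdeal _).2 hnu
    have h5 : ((b : ℤ) : ↥O) * ((p : ℕ) : ↥O) ∈ maximalIdeal ↥O :=
      (maximalIdeal ↥O).mul_mem_left _ hpm
    have h6 := (maximalIdeal ↥O).add_mem h4 h5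
    rw [sub_add_cancel] at h6
    exact (maximalIdeal.isMaximal ↥O).ne_top ((Ideal.eq_top_iff_one _).2 h6)
  exact isUnit_of_mul_isUnit_right h3

end Units

section Main

variable (A : ValuationSubring Qb) {p : ℕ} (hp : p.Prime) (hA : A.LiesOverPrime p)
  (L1 : IntermediateField ℚ Qb) [FiniteDimensional ℚ L1] [Normal ℚ L1]

/-- restriction of an element of the inertia group is inert at `A ∩ L1`. -/
theorem mzf3_res_inert (σ : GQ) (hσ : σ ∈ A.inertiaSubgroupIn ℚ) (x : L1)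
    (hx : x ∈ A.comap (algebraMap L1 Qb)) :
    AlgEquiv.restrictNormalHom L1 σ x ∈ A.comap (algebraMap L1 Qb) ∧
      AlgEquiv.restrictNormalHom L1 σ x - x ∈ (A.comap (algebraMap L1 Qb)).nonunits := by
  have h1 := ((tl_mem_inertiaSubgroupIn_iff A σ).1 hσ).2
  have hx' : algebraMap L1 Qb x ∈ A := hx
  have hc : algebraMap L1 Qb (AlgEquiv.restrictNormalHom L1 σ x) = σ (algebraMap L1 Qb x) :=
    AlgEquiv.restrictNormal_commutes σ L1 x
  have h2 : σ (algebraMap L1 Qb x) - algebraMap L1 Qb x ∈ A.nonunits := h1 _ hx'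
  constructor
  · show algebraMap L1 Qb _ ∈ A
    rw [hc]
    have : σ (algebraMap L1 Qb x) = (σ (algebraMap L1 Qb x) - algebraMap L1 Qb x) +
        algebraMap L1 Qb x := by ring
    rw [this]
    exact A.add_mem _ _ (A.nonunits_le h2) hx'
  · rw [dsc_mem_comap_nonunits_iff, map_sub, hc]
    exact h2

variable {H : Type*} [Group H]

include hp hA in
/-- **(A2), normal level, homomorphisms defined on the inertia group only.**
`g : I →* H` trivial on `I ∩ Gal(Q̄/L1)`, `L1/ℚ` finite normal, every `g σ` of `r`-power order,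
`r ≠ p`: then `g(I) ⊆ ⟨g τ⟩` for some `τ ∈ I`. -/
theorem mzf3_cyclic_I {r : ℕ} (hr : r.Prime) (hrp : r ≠ p)
    (g : ↥(A.inertiaSubgroupIn ℚ) →* H)
    (hL1 : ∀ σ : ↥(A.inertiaSubgroupIn ℚ), (∀ y ∈ L1, (σ : GQ) y = y) → g σ = 1)
    (hpow : ∀ σ : ↥(A.inertiaSubgroupIn ℚ), ∃ n : ℕ, g σ ^ r ^ n = 1) :
    ∃ τ : ↥(A.inertiaSubgroupIn ℚ), ∀ σ : ↥(A.inertiaSubgroupIn ℚ),
      g σ ∈ Subgroup.zpowers (g τ) := by
  classical
  haveI : Fact r.Prime := ⟨hr⟩
  haveI : NumberField ↥L1 := { to_charZero := inferInstance, to_finiteDimensional := inferInstance }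
  set O := A.comap (algebraMap L1 Qb) with hO
  haveI : IsDiscreteValuationRing ↥O := dsc_isDVR_comap_numberField A p hA hp.ne_zero ↥L1
  let I : Subgroup GQ := A.inertiaSubgroupIn ℚ
  set res : GQ →* (L1 ≃ₐ[ℚ] L1) := AlgEquiv.restrictNormalHom L1 with hres
  -- the image of inertia in the finite Galois group
  set Ibar : Subgroup (L1 ≃ₐ[ℚ] L1) := I.map res with hIbar
  -- `g` descends to `Ibar`
  let resI : ↥I →* ↥Ibar := res.subgroupMap I
  have hresI : Function.Surjective resI := res.subgroupMap_surjective I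
  have hker : resI.ker ≤ g.ker := by
    intro σ hσ
    rw [MonoidHom.mem_ker] at hσ ⊢
    apply hL1
    intro y hy
    have h1 : res (σ : GQ) = 1 := by
      have := congrArg Subtype.val hσ
      exact this
    have h2 : algebraMap L1 Qb (res (σ : GQ) ⟨y, hy⟩) = (σ : GQ) (algebraMap L1 Qb ⟨y, hy⟩) :=
      AlgEquiv.restrictNormal_commutes (σ : GQ) L1 ⟨y, hy⟩
    rw [h1] at h2
    exact h2.symm
  let gbar : ↥Ibar →* H := resI.liftOfSurjective hresI ⟨g, hker⟩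
  have hgbar : ∀ σ : ↥I, gbar (resI σ) = g σ := fun σ =>
    MonoidHom.liftOfRightInverse_comp_apply _ _ _ ⟨g, hker⟩ σ
  -- a Sylow `r`-subgroup of `Ibar`
  obtain ⟨S⟩ : Nonempty (Sylow r ↥Ibar) := Sylow.nonempty
  -- it is cyclic
  let ι : ↥(S : Subgroup ↥Ibar) →* (L1 ≃ₐ[ℚ] L1) := Ibar.subtype.comp (S : Subgroup ↥Ibar).subtype
  have hιinj : Function.Injective ι := fun a b hab => Subtype.ext (Subtype.ext hab)
  have hmem : ∀ s : ↥(S : Subgroup ↥Ibar), ∃ σ ∈ I, res σ = ι s := fun s => by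
    obtain ⟨σ, hσ, h⟩ := (s : ↥Ibar).2
    exact ⟨σ, hσ, h⟩
  have hpres : ∀ (s : ↥(S : Subgroup ↥Ibar)) (x : ↥L1), x ∈ O → ι s x ∈ O := fun s x hx => by
    obtain ⟨σ, hσ, h⟩ := hmem s
    rw [← h]
    exact (mzf3_res_inert A L1 σ hσ x hx).1
  have hresid : ∀ (s : ↥(S : Subgroup ↥Ibar)) (x : ↥L1), x ∈ O → ι s x - x ∈ O.nonunits :=
    fun s x hx => by
      obtain ⟨σ, hσ, h⟩ := hmem s
      rw [← h]
      exact (mzf3_res_inert A L1 σ hσ x hx).2
  have hcard : IsUnit ((Nat.card ↥(S : Subgroup ↥Ibar) : ℕ) : ↥O) := by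
    obtain ⟨n, hn⟩ := IsPGroup.iff_card.1 S.isPGroup'
    rw [hn]
    apply mzf3_isUnit_natCast A hA ↥L1
    exact Nat.Coprime.pow_left n ((Nat.coprime_primes hr hp).2 hrp)
  haveI hcyc : IsCyclic ↥(S : Subgroup ↥Ibar) :=
    mzf3_cyclic_of_inert O ι hpres hιinj hresid hcard
  obtain ⟨s0, hs0⟩ := IsCyclic.exists_generator (α := ↥(S : Subgroup ↥Ibar))
  obtain ⟨τ, hτ, hτs⟩ := hmem s0
  refine ⟨⟨τ, hτ⟩, fun σ => ?_⟩
  -- the range of `gbar` is an `r`-group
  have hrange : IsPGroup r ↥gbar.range := by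
    rintro ⟨h, s, rfl⟩
    obtain ⟨σ', rfl⟩ := hresI s
    obtain ⟨n, hn⟩ := hpow σ'
    refine ⟨n, Subtype.ext ?_⟩
    show gbar (resI σ') ^ r ^ n = 1
    rw [hgbar]; exact hn
  -- the Sylow subgroup maps onto the range
  let gr : ↥Ibar →* ↥gbar.range := gbar.rangeRestrict
  have hgr : Function.Surjective gr := gbar.rangeRestrict_surjective
  have htop : ((S.mapSurjective hgr : Sylow r ↥gbar.range) : Subgroup ↥gbar.range) = ⊤ :=
    ((S.mapSurjective hgr).is_maximal' (Q := ⊤)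
      (fun x => by
        obtain ⟨n, hn⟩ := hrange x.1
        exact ⟨n, Subtype.ext hn⟩) le_top).symm
  rw [Sylow.coe_mapSurjective] at htop
  have hσmem : (⟨g σ, ⟨resI σ, hgbar σ⟩⟩ : ↥gbar.range) ∈
      (S : Subgroup ↥Ibar).map gr := by
    rw [htop]; exact Subgroup.mem_top _
  obtain ⟨s, hsS, hs⟩ := hσmem
  obtain ⟨k, hk⟩ := Subgroup.mem_zpowers_iff.1 (hs0 ⟨s, hsS⟩)
  have hfs : g σ = gbar s := by
    have := congrArg Subtype.val hs
    exact this.symm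
  have hs' : s = ((s0 : ↥(S : Subgroup ↥Ibar)) : ↥Ibar) ^ k := by
    have := congrArg Subtype.val hk
    simpa using this.symm
  have hs0τ : ((s0 : ↥(S : Subgroup ↥Ibar)) : ↥Ibar) = resI ⟨τ, hτ⟩ := by
    apply Subtype.ext
    show ι s0 = res τ
    exact hτs.symm
  rw [hfs, hs', hs0τ, map_zpow, hgbar]
  exact Subgroup.zpow_mem_zpowers _ k

include hp hA in
/-- **(A2), normal level.** `f : G_ℚ →* H` trivial on `Gal(Q̄/L1)`, `L1/ℚ` finite normal, every
`f σ` (`σ ∈ I`) of `r`-power order, `r ≠ p`: then `f(I) ⊆ ⟨f τ⟩` for some `τ ∈ I`. -/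
theorem mzf3_cyclic (f : GQ →* H) {r : ℕ} (hr : r.Prime) (hrp : r ≠ p)
    (hL1 : ∀ σ : GQ, (∀ y ∈ L1, σ y = y) → f σ = 1)
    (hpow : ∀ σ ∈ A.inertiaSubgroupIn ℚ, ∃ n : ℕ, f σ ^ r ^ n = 1) :
    ∃ τ ∈ A.inertiaSubgroupIn ℚ, ∀ σ ∈ A.inertiaSubgroupIn ℚ, f σ ∈ Subgroup.zpowers (f τ) := by
  obtain ⟨τ, hτ⟩ := mzf3_cyclic_I A hp hA L1 hr hrp (f.comp (A.inertiaSubgroupIn ℚ).subtype)
    (fun σ h => hL1 _ h) (fun σ => hpow _ σ.2)
  exact ⟨τ, τ.2, fun σ hσ => hτ ⟨σ, hσ⟩⟩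

end Main

section General

variable (A : ValuationSubring Qb) {p : ℕ} (hp : p.Prime) (hA : A.LiesOverPrime p)
  {H : Type*} [Group H]

include hp hA in
/-- **(A2), homomorphisms on the inertia group, arbitrary finite level.** -/
theorem mzf3_cyclic_I' {r : ℕ} (hr : r.Prime) (hrp : r ≠ p)
    (L1 : IntermediateField ℚ Qb) [FiniteDimensional ℚ L1]
    (g : ↥(A.inertiaSubgroupIn ℚ) →* H)
    (hL1 : ∀ σ : ↥(A.inertiaSubgroupIn ℚ), (∀ y ∈ L1, (σ : GQ) y = y) → g σ = 1)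
    (hpow : ∀ σ : ↥(A.inertiaSubgroupIn ℚ), ∃ n : ℕ, g σ ^ r ^ n = 1) :
    ∃ τ : ↥(A.inertiaSubgroupIn ℚ), ∀ σ : ↥(A.inertiaSubgroupIn ℚ),
      g σ ∈ Subgroup.zpowers (g τ) := by
  haveI : Algebra.IsAlgebraic ℚ Qb := AlgebraicClosure.isAlgebraic ℚ
  haveI : IsAlgClosure ℚ Qb := ⟨inferInstance, inferInstance⟩
  haveI : Normal ℚ Qb := IsAlgClosure.normal ℚ Qb
  haveI : Normal ℚ ↥(IntermediateField.normalClosure ℚ ↥L1 Qb) := normalClosure.normal ℚ ↥L1 Qb
  refine mzf3_cyclic_I A hp hA (IntermediateField.normalClosure ℚ ↥L1 Qb) hr hrp g ?_ hpow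
  intro σ hσ
  apply hL1
  intro y hy
  exact hσ y (IntermediateField.le_normalClosure L1 hy)

include hp hA in
/-- **(A2).** `f : G_ℚ →* H` trivial on `Gal(Q̄/L1)` for a finite level `L1` (not necessarily
normal), `f(I)` an `r`-group, `r ≠ p`  ⟹  `f(I) ⊆ ⟨f τ⟩` for some `τ ∈ I`. -/
theorem mzf3_cyclic' (f : GQ →* H) {r : ℕ} (hr : r.Prime) (hrp : r ≠ p)
    (L1 : IntermediateField ℚ Qb) [FiniteDimensional ℚ L1]
    (hL1 : ∀ σ : GQ, (∀ y ∈ L1, σ y = y) → f σ = 1)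
    (hpow : ∀ σ ∈ A.inertiaSubgroupIn ℚ, ∃ n : ℕ, f σ ^ r ^ n = 1) :
    ∃ τ ∈ A.inertiaSubgroupIn ℚ, ∀ σ ∈ A.inertiaSubgroupIn ℚ, f σ ∈ Subgroup.zpowers (f τ) := by
  obtain ⟨τ, hτ⟩ := mzf3_cyclic_I' A hp hA hr hrp L1 (f.comp (A.inertiaSubgroupIn ℚ).subtype)
    (fun σ h => hL1 _ h) (fun σ => hpow _ σ.2)
  exact ⟨τ, τ.2, fun σ hσ => hτ ⟨σ, hσ⟩⟩

end General

end Fermat.Agent.MZ
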