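/-
MAZUR project (S15), node (F3)/[MZ-F'] (owner helper14), THE TAME-FROBENIUS LEMMA (helper26).
Prefix `mzf3_tf_`.  Mathlib only.

`R` a discrete valuation ring with uniformiser `t`, `G` a group acting on `R` by ring automorphisms.
For `g : G` write `g • t = u g * t` (`mzf3_tf_u`).  On the inertia subgroup (`σ` trivial modulo `𝔪`)
`θ σ := u σ mod 𝔪` is the TAME CHARACTER; it does not depend on `t`, and
`θ (g σ g⁻¹) = ḡ (θ σ)` for every `g : G`.  Hence, if `φ` induces `x ↦ x ^ q` on the residue field: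

* `mzf3_tf_wild` (TF1): `c := φ σ φ⁻¹ (σ ^ q)⁻¹` is WILD: trivial modulo `𝔪` and `c • t ≡ t mod 𝔪²`;
* `mzf3_tf_orderOf_wild` (TF2a): a wild element of a finite group acting faithfully has order a
  power of the residue characteristic `p`;
* `mzf3_tf_conj` (TF2): for every homomorphism `f : G →* H` which maps the inertia elements to
  elements of order prime to `p`: `f (φ σ φ⁻¹) = f σ ^ q`.
-/
import Mathlib
import Fermat.Agent.JT3.Algebra.TameInertia

set_option autoImplicit false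

namespace Fermat.Agent.MZ

open IsLocalRing

section DVR

variable {R : Type*} [CommRing R] [IsDomain R] [IsDiscreteValuationRing R]
variable {G : Type*} [Group G] [MulSemiringAction G R]

/-- `g` acts trivially on the residue field -/
def mzf3_tf_Triv (g : G) : Prop := ∀ x : R, g • x - x ∈ maximalIdeal R

theorem mzf3_tf_smul_mem_max (g : G) {x : R} (hx : x ∈ maximalIdeal R) :
    g • x ∈ maximalIdeal R := by
  rw [mem_maximalIdeal, mem_nonunits_iff] at hx ⊢
  intro h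
  apply hx
  have : IsUnit (g⁻¹ • (g • x)) := h.map (MulSemiringAction.toRingHom G R g⁻¹)
  rwa [inv_smul_smul] at this

theorem mzf3_tf_residue_smul {g : G} (hg : mzf3_tf_Triv (R := R) g) (x : R) :
    residue R (g • x) = residue R x := by
  rw [← sub_eq_zero, ← map_sub, residue_eq_zero_iff]
  exact hg x

theorem mzf3_tf_triv_one : mzf3_tf_Triv (R := R) (1 : G) := fun x => by
  rw [one_smul, sub_self]; exact zero_mem _

theorem mzf3_tf_triv_mul {g h : G} (hg : mzf3_tf_Triv (R := R) g) (hh : mzf3_tf_Triv (R := R) h) :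
    mzf3_tf_Triv (R := R) (g * h) := fun x => by
  have e : (g * h) • x - x = g • (h • x - x) + (g • x - x) := by
    rw [mul_smul, smul_sub]; ring
  rw [e]
  exact add_mem (mzf3_tf_smul_mem_max g (hh x)) (hg x)

theorem mzf3_tf_triv_inv {g : G} (hg : mzf3_tf_Triv (R := R) g) :
    mzf3_tf_Triv (R := R) g⁻¹ := fun x => by
  have e : g⁻¹ • x - x = -(g⁻¹ • (g • x - x)) := by
    rw [smul_sub, inv_smul_smul]; ring
  rw [e]
  exact neg_mem (mzf3_tf_smul_mem_max g⁻¹ (hg x))

theorem mzf3_tf_triv_pow {g : G} (hg : mzf3_tf_Triv (R := R) g) (n : ℕ) :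
    mzf3_tf_Triv (R := R) (g ^ n) := by
  induction n with
  | zero => rw [pow_zero]; exact mzf3_tf_triv_one
  | succ n ih => rw [pow_succ]; exact mzf3_tf_triv_mul ih hg

theorem mzf3_tf_triv_conj (φ : G) {g : G} (hg : mzf3_tf_Triv (R := R) g) :
    mzf3_tf_Triv (R := R) (φ * g * φ⁻¹) := fun x => by
  have e : (φ * g * φ⁻¹) • x - x = φ • (g • (φ⁻¹ • x) - φ⁻¹ • x) := by
    rw [mul_smul, mul_smul, smul_sub, smul_inv_smul]
  rw [e]
  exact mzf3_tf_smul_mem_max φ (hg _)

variable {t : R} (ht : Irreducible t)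

include ht in
theorem mzf3_tf_exists_u (g : G) : ∃ u : R, g • t = u * t := by
  have hirr : Irreducible (g • t) :=
    (MulEquiv.irreducible_iff (MulSemiringAction.toRingEquiv G R g)).2 ht
  obtain ⟨u, hu⟩ := IsDiscreteValuationRing.associated_of_irreducible R ht hirr
  exact ⟨u, by rw [← hu, mul_comm]⟩

/-- the factor `u g` with `g • t = u g * t` -/
noncomputable def mzf3_tf_u (g : G) : R := Classical.choose (mzf3_tf_exists_u ht g)

theorem mzf3_tf_u_spec (g : G) : g • t = mzf3_tf_u ht g * t :=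
  Classical.choose_spec (mzf3_tf_exists_u ht g)

theorem mzf3_tf_u_mul (g h : G) :
    mzf3_tf_u ht (g * h) = g • (mzf3_tf_u ht h) * mzf3_tf_u ht g := by
  apply mul_right_cancel₀ ht.ne_zero
  rw [← mzf3_tf_u_spec, mul_smul, mzf3_tf_u_spec ht h, smul_mul', mzf3_tf_u_spec ht g]
  ring

theorem mzf3_tf_u_one : mzf3_tf_u ht (1 : G) = 1 := by
  apply mul_right_cancel₀ ht.ne_zero
  rw [← mzf3_tf_u_spec, one_smul, one_mul]

/-- `g` is WILD: trivial on the residue field and on `𝔪 / 𝔪²`. -/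
def mzf3_tf_Wild (g : G) : Prop :=
  mzf3_tf_Triv (R := R) g ∧ residue R (mzf3_tf_u ht g) = 1

/-- the tame character of a power -/
theorem mzf3_tf_residue_u_pow {σ : G} (hσ : mzf3_tf_Triv (R := R) σ) (n : ℕ) :
    residue R (mzf3_tf_u ht (σ ^ n)) = residue R (mzf3_tf_u ht σ) ^ n := by
  induction n with
  | zero => rw [pow_zero, mzf3_tf_u_one, map_one, pow_zero]
  | succ n ih =>
    rw [pow_succ', mzf3_tf_u_mul, map_mul, mzf3_tf_residue_smul hσ, ih, pow_succ]

/-- the tame character of an inverse -/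
theorem mzf3_tf_residue_u_inv {σ : G} (hσ : mzf3_tf_Triv (R := R) σ) :
    residue R (mzf3_tf_u ht σ⁻¹) * residue R (mzf3_tf_u ht σ) = 1 := by
  have h := mzf3_tf_u_mul ht σ σ⁻¹
  rw [mul_inv_cancel, mzf3_tf_u_one] at h
  have h2 := congrArg (residue R) h
  rw [map_one, map_mul, mzf3_tf_residue_smul hσ] at h2
  exact h2.symm

/-- **the tame character is equivariant**: if `φ` induces `x ↦ x ^ q` on the residue field then
`θ (φ σ φ⁻¹) = θ σ ^ q`. -/
theorem mzf3_tf_residue_u_conj {σ φ : G} (hσ : mzf3_tf_Triv (R := R) σ) (q : ℕ)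
    (hφ : ∀ x : R, φ • x - x ^ q ∈ maximalIdeal R) :
    residue R (mzf3_tf_u ht (φ * σ * φ⁻¹)) = residue R (mzf3_tf_u ht σ) ^ q := by
  have hφres : ∀ x : R, residue R (φ • x) = residue R x ^ q := fun x => by
    rw [← map_pow, ← sub_eq_zero, ← map_sub, residue_eq_zero_iff]
    exact hφ x
  have h1 : mzf3_tf_u ht (φ * σ * φ⁻¹) =
      φ • (σ • mzf3_tf_u ht φ⁻¹) * φ • mzf3_tf_u ht σ * mzf3_tf_u ht φ := by
    rw [mul_assoc, mzf3_tf_u_mul, mzf3_tf_u_mul, smul_mul']
  have h2 : residue R (mzf3_tf_u ht φ⁻¹) ^ q * residue R (mzf3_tf_u ht φ) = 1 := by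
    have h := mzf3_tf_u_mul ht φ φ⁻¹
    rw [mul_inv_cancel, mzf3_tf_u_one] at h
    have h3 := congrArg (residue R) h
    rw [map_one, map_mul, hφres] at h3
    exact h3.symm
  rw [h1, map_mul, map_mul, hφres, hφres, mzf3_tf_residue_smul hσ]
  calc residue R (mzf3_tf_u ht φ⁻¹) ^ q * residue R (mzf3_tf_u ht σ) ^ q *
        residue R (mzf3_tf_u ht φ)
      = (residue R (mzf3_tf_u ht φ⁻¹) ^ q * residue R (mzf3_tf_u ht φ)) *
        residue R (mzf3_tf_u ht σ) ^ q := by ring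
    _ = residue R (mzf3_tf_u ht σ) ^ q := by rw [h2, one_mul]

/-- **(TF1)** if `σ` is trivial on the residue field and `φ` induces `x ↦ x ^ q` on it, then
`φ σ φ⁻¹ (σ ^ q)⁻¹` is wild. -/
theorem mzf3_tf_wild {σ φ : G} (hσ : mzf3_tf_Triv (R := R) σ) (q : ℕ)
    (hφ : ∀ x : R, φ • x - x ^ q ∈ maximalIdeal R) :
    mzf3_tf_Wild ht (φ * σ * φ⁻¹ * (σ ^ q)⁻¹) := by
  have hα : mzf3_tf_Triv (R := R) (φ * σ * φ⁻¹) := mzf3_tf_triv_conj φ hσ
  have hβ : mzf3_tf_Triv (R := R) (σ ^ q) := mzf3_tf_triv_pow hσ q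
  refine ⟨mzf3_tf_triv_mul hα (mzf3_tf_triv_inv hβ), ?_⟩
  rw [mzf3_tf_u_mul, map_mul, mzf3_tf_residue_smul hα, mzf3_tf_residue_u_conj ht hσ q hφ,
    ← mzf3_tf_residue_u_pow ht hσ q]
  exact mzf3_tf_residue_u_inv ht hβ

end DVR

section Finite

variable {R : Type*} [CommRing R] [IsDomain R] [IsDiscreteValuationRing R]
variable {G : Type*} [Group G] [Finite G] [MulSemiringAction G R] [FaithfulSMul G R]
variable {t : R} (ht : Irreducible t)

omit [Finite G] [FaithfulSMul G R] in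
/-- powers of wild elements are wild -/
theorem mzf3_tf_wild_pow {c : G} (hc : mzf3_tf_Wild ht c) (n : ℕ) : mzf3_tf_Wild ht (c ^ n) :=
  ⟨mzf3_tf_triv_pow hc.1 n, by rw [mzf3_tf_residue_u_pow ht hc.1, hc.2, one_pow]⟩

/-- a wild element of finite order invertible in `R` is trivial -/
theorem mzf3_tf_wild_eq_one {c : G} (hc : mzf3_tf_Wild ht c) (n : ℕ) (hn : c ^ n = 1)
    (hnu : IsUnit (n : R)) : c = 1 := by
  have hm : maximalIdeal R = Ideal.span {t} := ht.maximalIdeal_eq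
  have h1 : ∀ x : R, t ∣ c • x - x := fun x => by
    have := hc.1 x
    rwa [hm, Ideal.mem_span_singleton] at this
  have hu1 : t ∣ mzf3_tf_u ht c - 1 := by
    have h2 : residue R (mzf3_tf_u ht c - 1) = 0 := by
      rw [map_sub, map_one]
      exact sub_eq_zero.2 hc.2
    rwa [residue_eq_zero_iff, hm, Ideal.mem_span_singleton] at h2
  apply FaithfulSMul.eq_of_smul_eq_smul (α := R)
  intro x
  rw [one_smul]
  exact Fermat.Agent.JT3.ti_smul_eq_of_trivial_gr c ht (mzf3_tf_u ht c) (mzf3_tf_u_spec ht c)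
    hu1 h1 n hn hnu x

/-- **(TF2a)** a wild element has order a power of the residue characteristic `p`. -/
theorem mzf3_tf_orderOf_wild (p : ℕ) [hp : Fact p.Prime] (hpR : (p : R) ∈ maximalIdeal R)
    {c : G} (hc : mzf3_tf_Wild ht c) : ∃ a : ℕ, orderOf c = p ^ a := by
  have hn0 : orderOf c ≠ 0 := (orderOf_pos c).ne'
  obtain ⟨a, m, hpm, hnm⟩ := Nat.exists_eq_pow_mul_and_not_dvd hn0 p hp.out.ne_one
  -- `m` is a unit of `R`
  have hmu : IsUnit (m : R) := by
    rw [← IsLocalRing.notMem_maximalIdeal]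
    intro hmem
    have hcop : Nat.Coprime p m := (Nat.Prime.coprime_iff_not_dvd hp.out).2 hpm
    -- `1 = x p + y m` lies in the maximal ideal
    have h1 : ((Nat.gcdA p m * (p : ℤ) + Nat.gcdB p m * (m : ℤ) : ℤ) : R) ∈ maximalIdeal R := by
      push_cast
      exact add_mem (Ideal.mul_mem_left _ _ hpR) (Ideal.mul_mem_left _ _ hmem)
    have h2 : (Nat.gcdA p m * (p : ℤ) + Nat.gcdB p m * (m : ℤ) : ℤ) = 1 := by
      have := Nat.gcd_eq_gcd_ab p m
      rw [hcop.gcd_eq_one] at this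
      rw [mul_comm (Nat.gcdA p m), mul_comm (Nat.gcdB p m)]
      exact_mod_cast this.symm
    rw [h2, Int.cast_one] at h1
    exact (Ideal.ne_top_iff_one _).1 (IsLocalRing.maximalIdeal.isMaximal R).ne_top h1
  have hc' : c ^ p ^ a = 1 := by
    refine mzf3_tf_wild_eq_one ht (mzf3_tf_wild_pow ht hc (p ^ a)) m ?_ hmu
    rw [← pow_mul, ← hnm]
    exact pow_orderOf_eq_one c
  have hdvd : orderOf c ∣ p ^ a := orderOf_dvd_of_pow_eq_one hc'
  refine ⟨a, Nat.dvd_antisymm hdvd ?_⟩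
  rw [hnm]
  exact Dvd.intro _ rfl

/-- **(TF2) the tame-Frobenius relation.**  `σ` trivial on the residue field, `φ` inducing
`x ↦ x ^ q` on it, `f : G →* H` a homomorphism which maps every inertia element to an element of
order prime to the residue characteristic `p`.  Then `f (φ σ φ⁻¹) = f σ ^ q`. -/
theorem mzf3_tf_conj {H : Type*} [Group H] (p : ℕ) [hp : Fact p.Prime]
    (hpR : (p : R) ∈ maximalIdeal R) {σ φ : G} (hσ : mzf3_tf_Triv (R := R) σ) (q : ℕ)
    (hφ : ∀ x : R, φ • x - x ^ q ∈ maximalIdeal R) (f : G →* H)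
    (hf : ∀ g : G, mzf3_tf_Triv (R := R) g → (orderOf (f g)).Coprime p) :
    f (φ * σ * φ⁻¹) = f σ ^ q := by
  obtain ⟨t, ht⟩ := IsDiscreteValuationRing.exists_irreducible R
  have hw := mzf3_tf_wild ht hσ q hφ
  obtain ⟨a, ha⟩ := mzf3_tf_orderOf_wild ht p hpR hw
  set c := φ * σ * φ⁻¹ * (σ ^ q)⁻¹ with hc
  have h1 : f c ^ p ^ a = 1 := by
    rw [← map_pow, ← ha, pow_orderOf_eq_one, map_one]
  have h2 : orderOf (f c) ∣ p ^ a := orderOf_dvd_of_pow_eq_one h1
  have h3 : (orderOf (f c)).Coprime (p ^ a) := (hf c hw.1).pow_right a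
  have h4 : orderOf (f c) = 1 := Nat.Coprime.eq_one_of_dvd h3 h2
  have h5 : f c = 1 := orderOf_eq_one_iff.1 h4
  have h6 : f (φ * σ * φ⁻¹) = f c * f (σ ^ q) := by
    rw [← map_mul, hc, inv_mul_cancel_right]
  rw [h6, h5, one_mul, map_pow]

end Finite

end Fermat.Agent.MZ
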