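/-
MAZUR project (S15), node (F3)/[MZ-F'] (owner helper14), THE TAME-FROBENIUS LEMMA, `G_ℚ`-FORM
(helper26).  Prefix `mzf3_tfq_`.

`A` a valuation ring of `Q̄` over the prime `p`, `I = A.inertiaSubgroupIn ℚ`, `φ ∈ G_ℚ` a FROBENIUS
at `A`: `φ • A = A` and `φ a ≡ a ^ p mod 𝔪_A` for all `a ∈ A`.

* `mzf3_tfq_conj_mem`  : `φ σ φ⁻¹ ∈ I` for `σ ∈ I` (only `φ • A = A` is used);
* `mzf3_tfq_conj`      : `f : G_ℚ →* H` trivial on `Gal(Q̄/L1)`, `L1/ℚ` finite NORMAL, every `f σ`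
                         (`σ ∈ I`) of order prime to `p`  ⟹  `f (φ σ φ⁻¹) = f σ ^ p` for `σ ∈ I`;
* `mzf3_tfq_conj'`     : the same without normality of `L1`.
(`FF/…`: abstract form `mzf3_tf_wild`, `mzf3_tf_orderOf_wild` of `MZ/F3/TameFrob.lean` on the
discrete valuation ring `A ∩ L1`, with helper14's action `mzf3_actO` of `MZ/F3/TameCyclic.lean`.)
-/
import Mathlib
import Fermat.Agent.MZ.F3.TameFrob
import Fermat.Agent.MZ.F3.TameCyclic

set_option autoImplicit false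
set_option linter.unusedSectionVars false
set_option linter.style.haveILetI false

noncomputable section

namespace Fermat.Agent.MZ

open Fermat.Agent.JT3 Fermat.Agent.S55 IsLocalRing
open scoped Pointwise

local notation "Qb" => AlgebraicClosure ℚ
local notation "GQ" => (AlgebraicClosure ℚ ≃ₐ[ℚ] AlgebraicClosure ℚ)

/-! ### the decomposition group of a valuation subring, in elementary form -/

section Dec

variable {K L1 : Type*} [Field K] [Field L1] [Algebra K L1] (O : ValuationSubring L1)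

/-- the automorphisms `g` with `g O = O` -/
def mzf3_tfq_D : Subgroup (L1 ≃ₐ[K] L1) where
  carrier := {g | ∀ x : L1, x ∈ O ↔ g x ∈ O}
  one_mem' := fun x => Iff.rfl
  mul_mem' := by
    intro g h hg hh x
    exact (hh x).trans (hg (h x))
  inv_mem' := by
    intro g hg x
    have h := hg (g⁻¹ x)
    have e : g (g⁻¹ x) = x := AlgEquiv.apply_symm_apply g x
    rw [e] at h
    exact h.symm

theorem mzf3_tfq_mem_D {g : L1 ≃ₐ[K] L1} :
    g ∈ mzf3_tfq_D (K := K) O ↔ ∀ x : L1, x ∈ O ↔ g x ∈ O := Iff.rfl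

end Dec

section Main

variable (A : ValuationSubring Qb) {p : ℕ} (hp : p.Prime) (hA : A.LiesOverPrime p)

/-- `φ • A = A` in elementwise form -/
theorem mzf3_tfq_mem_iff {φ : GQ} (hφA : φ • A = A) (y : Qb) : y ∈ A ↔ φ y ∈ A := by
  have h : φ • y ∈ φ • A ↔ y ∈ A := ValuationSubring.smul_mem_pointwise_smul_iff
  rw [hφA] at h
  exact h.symm

theorem mzf3_tfq_nonunits_iff {φ : GQ} (hφA : φ • A = A) (y : Qb) :
    y ∈ A.nonunits ↔ φ y ∈ A.nonunits := by
  rw [ValuationSubring.mem_nonunits_iff_or, ValuationSubring.mem_nonunits_iff_or, ← map_inv₀,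
    ← mzf3_tfq_mem_iff A hφA, map_eq_zero]

theorem mzf3_tfq_inv_smul {φ : GQ} (hφA : φ • A = A) : φ⁻¹ • A = A := by
  conv_lhs => rw [← hφA]
  exact inv_smul_smul φ A

/-- the inertia group is normalised by the decomposition group -/
theorem mzf3_tfq_conj_mem {φ : GQ} (hφA : φ • A = A) {σ : GQ}
    (hσ : σ ∈ A.inertiaSubgroupIn ℚ) : φ * σ * φ⁻¹ ∈ A.inertiaSubgroupIn ℚ := by
  obtain ⟨h1, h2⟩ := (tl_mem_inertiaSubgroupIn_iff A σ).1 hσ
  rw [tl_mem_inertiaSubgroupIn_iff]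
  refine ⟨?_, fun x hx => ?_⟩
  · rw [mul_smul, mul_smul, mzf3_tfq_inv_smul A hφA, h1, hφA]
  · have hy : φ⁻¹ x ∈ A := by
      rw [mzf3_tfq_mem_iff A hφA]
      have : φ (φ⁻¹ x) = x := AlgEquiv.apply_symm_apply φ x
      rw [this]; exact hx
    have h3 := h2 _ hy
    rw [mzf3_tfq_nonunits_iff A hφA, map_sub] at h3
    have e : φ (φ⁻¹ x) = x := AlgEquiv.apply_symm_apply φ x
    rw [e] at h3
    exact h3

variable (L1 : IntermediateField ℚ Qb) [FiniteDimensional ℚ L1] [Normal ℚ L1]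
  {H : Type*} [Group H]

include hp hA in
/-- **(TF3) the tame-Frobenius relation on finite quotients of order prime to `p`.** -/
theorem mzf3_tfq_conj (f : GQ →* H)
    (hL1 : ∀ σ : GQ, (∀ y ∈ L1, σ y = y) → f σ = 1)
    (hcop : ∀ σ ∈ A.inertiaSubgroupIn ℚ, (orderOf (f σ)).Coprime p)
    {φ : GQ} (hφA : φ • A = A) (hφ : ∀ a ∈ A, φ a - a ^ p ∈ A.nonunits)
    {σ : GQ} (hσ : σ ∈ A.inertiaSubgroupIn ℚ) :
    f (φ * σ * φ⁻¹) = f σ ^ p := by
  classical
  haveI : Fact p.Prime := ⟨hp⟩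
  haveI : NumberField ↥L1 := { to_charZero := inferInstance, to_finiteDimensional := inferInstance }
  set O := A.comap (algebraMap L1 Qb) with hO
  haveI : IsDiscreteValuationRing ↥O := dsc_isDVR_comap_numberField A p hA hp.ne_zero ↥L1
  set res : GQ →* (L1 ≃ₐ[ℚ] L1) := AlgEquiv.restrictNormalHom L1 with hres
  have hcomm : ∀ (τ : GQ) (x : L1), algebraMap L1 Qb (res τ x) = τ (algebraMap L1 Qb x) :=
    fun τ x => AlgEquiv.restrictNormal_commutes τ L1 x
  -- the finite group `D'` acting on `O`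
  let D' : Subgroup (L1 ≃ₐ[ℚ] L1) := mzf3_tfq_D (K := ℚ) O
  let ι : ↥D' →* (L1 ≃ₐ[ℚ] L1) := D'.subtype
  have hpres : ∀ (g : ↥D') (x : ↥L1), x ∈ O → ι g x ∈ O := fun g x hx => (g.2 x).1 hx
  letI := mzf3_actO O ι hpres
  haveI : FaithfulSMul ↥D' ↥O := ⟨fun {g h} hgh => by
    apply Subtype.ext
    apply AlgEquiv.ext
    intro y
    show ι g y = ι h y
    by_cases hy : y ∈ O
    · exact congrArg Subtype.val (hgh ⟨y, hy⟩)
    · have hy' : y⁻¹ ∈ O := (O.mem_or_inv_mem y).resolve_left hy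
      have := congrArg Subtype.val (hgh ⟨y⁻¹, hy'⟩)
      have h2 : ι g y⁻¹ = ι h y⁻¹ := this
      rw [map_inv₀, map_inv₀] at h2
      exact inv_injective h2⟩
  -- `res σ` and `res φ` lie in `D'`
  have hσinv : σ⁻¹ ∈ A.inertiaSubgroupIn ℚ := inv_mem hσ
  have hσD : res σ ∈ D' := by
    intro x
    constructor
    · intro hx
      exact (mzf3_res_inert A L1 σ hσ x hx).1
    · intro hx
      have h1 := (mzf3_res_inert A L1 σ⁻¹ hσinv _ hx).1
      have e : res σ⁻¹ (res σ x) = x := by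
        rw [map_inv]
        exact AlgEquiv.symm_apply_apply (res σ) x
      rwa [e] at h1
  have hφD : res φ ∈ D' := by
    intro x
    show algebraMap L1 Qb x ∈ A ↔ algebraMap L1 Qb (res φ x) ∈ A
    rw [hcomm]
    exact mzf3_tfq_mem_iff A hφA _
  let σ' : ↥D' := ⟨res σ, hσD⟩
  let φ' : ↥D' := ⟨res φ, hφD⟩
  have hσtriv : mzf3_tf_Triv (R := ↥O) σ' := by
    intro x
    rw [← ValuationSubring.coe_mem_nonunits_iff]
    exact (mzf3_res_inert A L1 σ hσ x x.2).2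
  have hφfrob : ∀ x : ↥O, φ' • x - x ^ p ∈ maximalIdeal ↥O := by
    intro x
    rw [← ValuationSubring.coe_mem_nonunits_iff]
    show res φ (x : L1) - (x : L1) ^ p ∈ O.nonunits
    rw [dsc_mem_comap_nonunits_iff, map_sub, map_pow, hcomm]
    exact hφ _ x.2
  have hpO : ((p : ℕ) : ↥O) ∈ maximalIdeal ↥O := by
    rw [← ValuationSubring.coe_mem_nonunits_iff]
    show ((p : ℕ) : L1) ∈ O.nonunits
    rw [dsc_mem_comap_nonunits_iff, map_natCast]
    exact hA
  -- the wild element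
  obtain ⟨t, ht⟩ := IsDiscreteValuationRing.exists_irreducible ↥O
  have hw := mzf3_tf_wild ht hσtriv p hφfrob
  obtain ⟨a, ha⟩ := mzf3_tf_orderOf_wild ht p hpO hw
  set c : GQ := φ * σ * φ⁻¹ * (σ ^ p)⁻¹ with hc
  have hcI : c ∈ A.inertiaSubgroupIn ℚ :=
    mul_mem (mzf3_tfq_conj_mem A hφA hσ) (inv_mem (pow_mem hσ p))
  have hresc : res c = ι (φ' * σ' * φ'⁻¹ * (σ' ^ p)⁻¹) := by
    rw [hc, map_mul, map_mul, map_mul, map_inv, map_inv, map_pow, map_mul, map_mul, map_mul,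
      map_inv, map_inv, map_pow]
    rfl
  have hcpow : res (c ^ p ^ a) = 1 := by
    rw [map_pow, hresc, ← map_pow, ← ha, pow_orderOf_eq_one, map_one]
  have hfc : f c ^ p ^ a = 1 := by
    rw [← map_pow]
    apply hL1
    intro y hy
    have h1 := hcomm (c ^ p ^ a) ⟨y, hy⟩
    rw [hcpow] at h1
    exact h1.symm
  have h2 : orderOf (f c) ∣ p ^ a := orderOf_dvd_of_pow_eq_one hfc
  have h3 : (orderOf (f c)).Coprime (p ^ a) := (hcop c hcI).pow_right a
  have h4 : orderOf (f c) = 1 := Nat.Coprime.eq_one_of_dvd h3 h2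
  have h5 : f c = 1 := orderOf_eq_one_iff.1 h4
  have h6 : f (φ * σ * φ⁻¹) = f c * f (σ ^ p) := by
    rw [← map_mul, hc, inv_mul_cancel_right]
  rw [h6, h5, one_mul, map_pow]

end Main

section General

variable (A : ValuationSubring Qb) {p : ℕ} (hp : p.Prime) (hA : A.LiesOverPrime p)
  {H : Type*} [Group H]

include hp hA in
/-- **(TF3), arbitrary finite level.** -/
theorem mzf3_tfq_conj' (L1 : IntermediateField ℚ Qb) [FiniteDimensional ℚ L1] (f : GQ →* H)
    (hL1 : ∀ σ : GQ, (∀ y ∈ L1, σ y = y) → f σ = 1)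
    (hcop : ∀ σ ∈ A.inertiaSubgroupIn ℚ, (orderOf (f σ)).Coprime p)
    {φ : GQ} (hφA : φ • A = A) (hφ : ∀ a ∈ A, φ a - a ^ p ∈ A.nonunits)
    {σ : GQ} (hσ : σ ∈ A.inertiaSubgroupIn ℚ) :
    f (φ * σ * φ⁻¹) = f σ ^ p := by
  haveI : Algebra.IsAlgebraic ℚ Qb := AlgebraicClosure.isAlgebraic ℚ
  haveI : IsAlgClosure ℚ Qb := ⟨inferInstance, inferInstance⟩
  haveI : Normal ℚ Qb := IsAlgClosure.normal ℚ Qb
  haveI : Normal ℚ ↥(IntermediateField.normalClosure ℚ ↥L1 Qb) := normalClosure.normal ℚ ↥L1 Qb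
  refine mzf3_tfq_conj A hp hA (IntermediateField.normalClosure ℚ ↥L1 Qb) f ?_ hcop hφA hφ hσ
  intro τ hτ
  apply hL1
  intro y hy
  exact hτ y (IntermediateField.le_normalClosure L1 hy)

end General

end Fermat.Agent.MZ
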