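/-
MAZUR project (S15), node (F3)/[MZ-F'] (owner helper14): the tame-Frobenius lemma for the PRELUDE's
Frobenius predicate `ValuationSubring.IsFrobeniusAt` (helper26).  Prefix `mzf3_tfa_`.

* `mzf3_tfa_unfold` : `A.IsFrobeniusAt φ q → φ • A = A ∧ ∀ a ∈ A, φ a - a ^ q ∈ A.nonunits`;
* `mzf3_tfa_conj`   : `f : G_ℚ →* H` trivial on `Gal(Q̄/L1)`, `[L1 : ℚ] < ∞`, `f(I_A)` of order prime
  to `p`, `φ` a Frobenius at `A` (over `p`)  ⟹  `f (φ σ φ⁻¹) = f σ ^ p` for `σ ∈ I_A`;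
* `mzf3_tfa_exists` : there IS a Frobenius at `A` (`fex_exists_isFrobeniusAt`), so: there is `φ` with
  `φ • A = A` and `f (φ σ φ⁻¹) = f σ ^ p` for all `σ ∈ I_A` and ALL such `f` simultaneously.
-/
import Mathlib
import Fermat.Prelude.Def_EllipticCurve_FrobeniusTrace
import Fermat.Agent.MZ.F3.TameFrobQ
import Fermat.Agent.JT3.ES.FrobExists

set_option autoImplicit false
set_option linter.unusedSectionVars false

noncomputable section

namespace Fermat.Agent.MZ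

open Fermat.Agent.JT3 IsLocalRing
open scoped Pointwise

local notation "Qb" => AlgebraicClosure ℚ
local notation "GQ" => (AlgebraicClosure ℚ ≃ₐ[ℚ] AlgebraicClosure ℚ)

/-- the Prelude's Frobenius predicate, unfolded to elements of `A`. -/
theorem mzf3_tfa_unfold (A : ValuationSubring Qb) {φ : GQ} {q : ℕ} (h : A.IsFrobeniusAt φ q) :
    φ • A = A ∧ ∀ a ∈ A, φ a - a ^ q ∈ A.nonunits := by
  obtain ⟨hφ, hres⟩ := h
  refine ⟨hφ, fun a ha => ?_⟩
  have h1 := hres (IsLocalRing.residue A ⟨a, ha⟩)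
  rw [← IsLocalRing.ResidueField.residue_smul, ← map_pow] at h1
  have h2 : (⟨φ, hφ⟩ : A.decompositionSubgroup ℚ) • (⟨a, ha⟩ : A) - (⟨a, ha⟩ : A) ^ q ∈
      IsLocalRing.maximalIdeal A := by
    rw [← Ideal.Quotient.eq]; exact h1
  exact ValuationSubring.coe_mem_nonunits_iff.2 h2

/-- **the tame-Frobenius relation** for the Prelude's Frobenius predicate. -/
theorem mzf3_tfa_conj (A : ValuationSubring Qb) {p : ℕ} (hp : p.Prime) (hA : A.LiesOverPrime p)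
    {H : Type*} [Group H] (L1 : IntermediateField ℚ Qb) [FiniteDimensional ℚ L1] (f : GQ →* H)
    (hL1 : ∀ σ : GQ, (∀ y ∈ L1, σ y = y) → f σ = 1)
    (hcop : ∀ σ ∈ A.inertiaSubgroupIn ℚ, (orderOf (f σ)).Coprime p)
    {φ : GQ} (hφ : A.IsFrobeniusAt φ p) {σ : GQ} (hσ : σ ∈ A.inertiaSubgroupIn ℚ) :
    f (φ * σ * φ⁻¹) = f σ ^ p :=
  mzf3_tfq_conj' A hp hA L1 f hL1 hcop (mzf3_tfa_unfold A hφ).1 (mzf3_tfa_unfold A hφ).2 hσ

/-- there is a Frobenius `φ` at `A`; it normalises the inertia group and satisfies the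
tame-Frobenius relation on every finite quotient of order prime to `p`. -/
theorem mzf3_tfa_exists (A : ValuationSubring Qb) {p : ℕ} (hp : p.Prime)
    (hA : A.LiesOverPrime p) :
    ∃ φ : GQ, A.IsFrobeniusAt φ p ∧ φ • A = A ∧
      (∀ σ ∈ A.inertiaSubgroupIn ℚ, φ * σ * φ⁻¹ ∈ A.inertiaSubgroupIn ℚ) ∧
      ∀ (H : Type) [Group H] (L1 : IntermediateField ℚ Qb) [FiniteDimensional ℚ L1]
        (f : GQ →* H), (∀ σ : GQ, (∀ y ∈ L1, σ y = y) → f σ = 1) →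
        (∀ σ ∈ A.inertiaSubgroupIn ℚ, (orderOf (f σ)).Coprime p) →
        ∀ σ ∈ A.inertiaSubgroupIn ℚ, f (φ * σ * φ⁻¹) = f σ ^ p := by
  obtain ⟨φ, hφ⟩ := fex_exists_isFrobeniusAt hp A hA
  refine ⟨φ, hφ, (mzf3_tfa_unfold A hφ).1,
    fun σ hσ => mzf3_tfq_conj_mem A (mzf3_tfa_unfold A hφ).1 hσ, ?_⟩
  intro H _ L1 _ f hL1 hcop σ hσ
  exact mzf3_tfa_conj A hp hA L1 f hL1 hcop hφ hσ

end Fermat.Agent.MZ
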