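/-
MAZUR project (S15), node (F3), cell (A1) (helper14): EXACT UNIPOTENCY OF INERTIA AT `q ‖ N` on the
`r`-power torsion of `J₀(N)` (`r ≠ q`), at FINITE level, with no multiplier.  Prefix `mzf3_`.

* `mzf3_geom`             : `ss_Geom N q` (project SS, S34 closure) as a closed theorem;
* `mzf3_exists_tate_lift` : every `y ∈ J₀(N)[p ^ n]` is the `n`-th component of an element of the
                            Tate module (`J₀(N)[p^∞]` is divisible: `H₁` is free);
* `mzf3_unip`             : for `σ` in an inertia group at `q ‖ N`, `r ≠ q` and `z ∈ J₀(N)[r ^ k]`: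
                            `σ σ z - 2 σ z + z = 0`.
-/
import Mathlib
import Fermat.Agent.SS.Final
import Fermat.Agent.SS.Model.NodeLegB
import Fermat.Agent.SS.Model.NodeHesFinal
import Fermat.Agent.JT3.Tate.JZeroInputs
import Fermat.Agent.JT3.Gateway.HomologyFree

set_option autoImplicit false
set_option linter.unusedSectionVars false
set_option linter.style.haveILetI false

noncomputable section

namespace Fermat.Agent.MZ

open Fermat.Agent.JT3 ModularCurve AlgebraicCurve CongruenceSubgroup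

local notation "Qb" => AlgebraicClosure ℚ
local notation "GQ" => (AlgebraicClosure ℚ ≃ₐ[ℚ] AlgebraicClosure ℚ)

/-- **the geometric seam of project SS**, closed: at `q ‖ N`, a fixed nonzero multiple of
`(σ - 1)²` kills the prime-to-`q` torsion of `J₀(N)` for every `σ` in an inertia group at `q`. -/
theorem mzf3_geom (N : ℕ) [NeZero N] (q : ℕ) (hq : q.Prime) (hqN : q ∣ N) (hq2 : ¬ q ^ 2 ∣ N) :
    Fermat.Agent.SS.ss_Geom N q :=
  Fermat.Agent.SS.ss_geom_of_core
    (fun N _ q hq hq2 hqN hq2N => Fermat.Agent.SS.ssm_nlb_coreNF N q hq hq2 hqN hq2N)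
    (fun N _ h2 h4 => Fermat.Agent.SS.ssm_nht_coreNFH N h2 h4) N q hq hqN hq2

section Lift

variable (N p : ℕ) [NeZero N] [hp : Fact p.Prime]

/-- **Every `p`-power torsion point of `J₀(N)` lifts to the Tate module.** -/
theorem mzf3_exists_tate_lift {n : ℕ} {y : JZero N} (hy : p ^ n • y = 0) :
    ∃ x : tm_T (JZero N) p, x.1 n = y := by
  classical
  set Z := tl_rootsComplex p with hZ
  set S := tj_charSystem (tji_surj N p) with hS
  have htor : ∀ γ : ↥(Gamma0 N), (tj_chi N p n y γ) ^ (p ^ n) = 1 := fun γ =>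
    S.apply_pow_eq_one n hy γ
  -- the discrete logarithm of the character of `y`
  let a : Additive ↥(Gamma0 N) →+ ZMod (p ^ n) :=
    { toFun := fun γ => Z.log n (tj_chi N p n y (Additive.toMul γ))
      map_zero' := by
        show Z.log n (tj_chi N p n y 1) = 0
        rw [map_one, Z.log_one]
      map_add' := fun γ γ' => by
        show Z.log n (tj_chi N p n y (Additive.toMul γ * Additive.toMul γ')) = _
        rw [map_mul, Z.log_mul (htor _) (htor _)] }
  have ha : ∀ γ : ↥(Gamma0 N), gh_IsParEll N γ → a (Additive.ofMul γ) = 0 := fun γ hγ => by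
    show Z.log n (tj_chi N p n y γ) = 0
    rw [tj_chi_rel N p n y hy γ hγ, Z.log_one]
  obtain ⟨ψ, hψ⟩ := ghf_exists_lift N (PadicInt.toZModPow n).toAddMonoidHom
    (ZMod.ringHom_surjective (PadicInt.toZModPow n)) (gh_lift a ha)
  refine ⟨(tji_lattice N p).symm ψ, ?_⟩
  refine S.eq_of_eq n (tm_tor _ n) hy (MonoidHom.ext fun γ => ?_)
  show tj_chi N p n (((tji_lattice N p).symm ψ).1 n) γ = tj_chi N p n y γ
  rw [tji_lattice_spec, LinearEquiv.apply_symm_apply]
  have h1 : PadicInt.toZModPow n (ψ (gh_mk N (Additive.ofMul γ))) = a (Additive.ofMul γ) := by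
    have := congrArg (fun f : gh_H N →+ ZMod (p ^ n) => f (gh_mk N (Additive.ofMul γ))) hψ
    simp only [AddMonoidHom.comp_apply] at this
    rw [gh_lift_mk] at this
    exact this
  rw [h1]
  exact Z.pow_log (htor γ)

end Lift

section Unip

variable (N : ℕ) [NeZero N]

/-- **(A1) exact unipotency at finite level.** `q ‖ N`, `A` over `q`, `σ` in the inertia group of
`A`, `r ≠ q` prime, `z ∈ J₀(N)[r ^ k]`: `σ σ z - 2 σ z + z = 0`. -/
theorem mzf3_unip (q : ℕ) (hq : q.Prime) (hqN : q ∣ N) (hq2 : ¬ q ^ 2 ∣ N)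
    (A : ValuationSubring Qb) (hA : A.LiesOverPrime q) (σ : GQ) (hσ : σ ∈ A.inertiaSubgroupIn ℚ)
    (r : ℕ) (hr : r.Prime) (hrq : r ≠ q) (k : ℕ) (z : JZero N) (hz : r ^ k • z = 0) :
    σ • (σ • z) - 2 • (σ • z) + z = 0 := by
  haveI : Fact r.Prime := ⟨hr⟩
  obtain ⟨d, hd, H⟩ := mzf3_geom N q hq hqN hq2
  -- `d = r ^ v * d'` with `r ∤ d'`
  obtain ⟨v, d', hd', hdd⟩ := Nat.exists_eq_pow_mul_and_not_dvd hd r hr.ne_one
  obtain ⟨x, hx⟩ := mzf3_exists_tate_lift N r hz
  -- the point `y = x_{k+v}` with `r ^ v • y = z`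
  set y := x.1 (k + v) with hy
  have hyz : r ^ v • y = z := by rw [← hx]; exact tm_pow_smul x k v
  have hytor : r ^ (k + v) • y = 0 := tm_tor x (k + v)
  have hqm : ¬ q ∣ r ^ (k + v) := fun h =>
    hrq ((Nat.prime_dvd_prime_iff_eq hq hr).1 (hq.dvd_of_dvd_pow h)).symm
  have h1 := H A hA σ hσ (r ^ (k + v)) hqm y hytor
  -- the operator `(σ - 1)²` as an additive endomorphism
  let s : JZero N →+ JZero N := DistribSMul.toAddMonoidHom (JZero N) σ
  let T : JZero N →+ JZero N := s.comp s - 2 • s + AddMonoidHom.id _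
  have hT : ∀ u : JZero N, T u = σ • (σ • u) - 2 • (σ • u) + u := fun u => rfl
  rw [← hT]
  rw [← hT] at h1
  have hTz : T z = r ^ v • T y := by rw [← hyz, map_nsmul]
  -- `d' • T z = 0`
  have h2 : d' • T z = 0 := by
    rw [hTz, ← mul_nsmul', mul_comm, ← hdd]
    exact h1
  -- `r ^ k • T z = 0`
  have h3 : r ^ k • T z = 0 := by rw [← map_nsmul, hz, map_zero]
  -- coprimality
  have hcop : Nat.Coprime d' (r ^ k) := Nat.Coprime.pow_right k
    ((Nat.Prime.coprime_iff_not_dvd hr).2 hd').symm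
  have h5 : addOrderOf (T z) ∣ Nat.gcd d' (r ^ k) :=
    Nat.dvd_gcd (addOrderOf_dvd_of_nsmul_eq_zero h2) (addOrderOf_dvd_of_nsmul_eq_zero h3)
  rw [hcop, Nat.dvd_one] at h5
  exact AddMonoid.addOrderOf_eq_one_iff.1 h5

end Unip

end Fermat.Agent.MZ
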