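/-
MAZUR project (S15), node [MZ-F'] route (B') (helper14), cell (K1): THE ABSTRACT COCYCLE LEMMA.
Prefix `mzf3_coc_`.  Mathlib only.

`Γ` a group acting on an abelian group `G`, `c : Γ → G` a cocycle, `f = mzf3_coc_aff c` the affine
permutation representation `f s x = s • x + c s`.  For `I ≤ Γ`, `τ φ : Γ`, `p : ℕ` with

* (H1) `(τ - 1)² = 0` on `G`;
* (H2) `f (φ τ φ⁻¹) = f τ ^ p`                      (tame-Frobenius relation);
* (H3) `f s ∈ ⟨f τ⟩` for `s ∈ I`                    (tame inertia is cyclic);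
* (H4) `d (φ² - p²)(φ - 1) = 0` on `G^I`            (toric clause);
* (H5) `e • G^I ⊆ (τ - 1) G`                        (no abelian part, up to `e`);

the cocycle `e d p² (p² - 1)² • c` restricted to `I` is a coboundary (`mzf3_coc_main`).
-/
import Mathlib

set_option autoImplicit false
set_option linter.unusedSectionVars false

namespace Fermat.Agent.MZ

section Cocycle

variable {Γ : Type*} [Group Γ] {G : Type*} [AddCommGroup G] [DistribMulAction Γ G]

/-- `c` is a 1-cocycle. -/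
def mzf3_coc_IsCocycle (c : Γ → G) : Prop := ∀ s t : Γ, c (s * t) = c s + s • c t

theorem mzf3_coc_one {c : Γ → G} (hc : mzf3_coc_IsCocycle c) : c 1 = 0 := by
  have h := hc 1 1
  rw [one_mul, one_smul] at h
  have h2 : c 1 + 0 = c 1 + c 1 := by rw [add_zero]; exact h
  exact (add_left_cancel h2).symm

theorem mzf3_coc_inv {c : Γ → G} (hc : mzf3_coc_IsCocycle c) (s : Γ) :
    c s⁻¹ = -(s⁻¹ • c s) := by
  have h := hc s⁻¹ s
  rw [inv_mul_cancel, mzf3_coc_one hc] at h
  exact eq_neg_of_add_eq_zero_left h.symm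

/-- the affine permutation representation attached to a cocycle. -/
def mzf3_coc_aff (c : Γ → G) (hc : mzf3_coc_IsCocycle c) : Γ →* Equiv.Perm G where
  toFun s :=
    { toFun := fun x => s • x + c s
      invFun := fun x => s⁻¹ • (x - c s)
      left_inv := fun x => by
        show s⁻¹ • (s • x + c s - c s) = x
        rw [add_sub_cancel_right, inv_smul_smul]
      right_inv := fun x => by
        show s • s⁻¹ • (x - c s) + c s = x
        rw [smul_inv_smul, sub_add_cancel] }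
  map_one' := by
    ext x
    show (1 : Γ) • x + c 1 = x
    rw [one_smul, mzf3_coc_one hc, add_zero]
  map_mul' := fun s t => by
    ext x
    show (s * t) • x + c (s * t) = s • (t • x + c t) + c s
    rw [hc s t, mul_smul, smul_add]
    abel

theorem mzf3_coc_aff_apply (c : Γ → G) (hc : mzf3_coc_IsCocycle c) (s : Γ) (x : G) :
    mzf3_coc_aff c hc s x = s • x + c s := rfl

/-- a cocycle which agrees with a coboundary at `τ` agrees with it on the powers of `τ`. -/
theorem mzf3_coc_zpow {c : Γ → G} (hc : mzf3_coc_IsCocycle c) (g : G) (τ : Γ)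
    (h : c τ = τ • g - g) (j : ℤ) : c (τ ^ j) = (τ ^ j) • g - g := by
  let S : Subgroup Γ :=
    { carrier := {s | c s = s • g - g}
      one_mem' := by
        show c 1 = (1 : Γ) • g - g
        rw [mzf3_coc_one hc, one_smul, sub_self]
      mul_mem' := by
        intro s t hs ht
        show c (s * t) = (s * t) • g - g
        have hs' : c s = s • g - g := hs
        have ht' : c t = t • g - g := ht
        rw [hc, hs', ht', smul_sub, mul_smul]
        abel
      inv_mem' := by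
        intro s hs
        show c s⁻¹ = s⁻¹ • g - g
        have hs' : c s = s • g - g := hs
        rw [mzf3_coc_inv hc, hs', smul_sub, inv_smul_smul]
        abel }
  have hτ : τ ∈ S := h
  exact S.zpow_mem hτ j

/-- integer multiples of a cocycle are cocycles. -/
theorem mzf3_coc_zsmul {c : Γ → G} (hc : mzf3_coc_IsCocycle c) (n : ℤ) :
    mzf3_coc_IsCocycle (fun s => n • c s) := by
  intro s t
  show n • c (s * t) = n • c s + s • n • c t
  rw [hc, smul_add, smul_comm s n (c t)]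

/-- **The abstract cocycle lemma of route (B').** -/
theorem mzf3_coc_main (c : Γ → G) (hc : mzf3_coc_IsCocycle c) (I : Subgroup Γ) (τ φ : Γ) (p : ℕ)
    (H1 : ∀ x : G, τ • τ • x - 2 • τ • x + x = 0)
    (H2 : mzf3_coc_aff c hc (φ * τ * φ⁻¹) = mzf3_coc_aff c hc τ ^ p)
    (H3 : ∀ s ∈ I, mzf3_coc_aff c hc s ∈ Subgroup.zpowers (mzf3_coc_aff c hc τ))
    (d : ℤ) (H4 : ∀ u : G, (∀ s ∈ I, s • u = u) →
      d • (φ • φ • (φ • u - u) - ((p : ℤ) ^ 2) • (φ • u - u)) = 0)
    (e : ℤ) (H5 : ∀ u : G, (∀ s ∈ I, s • u = u) → ∃ g : G, e • u = τ • g - g) :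
    ∃ g : G, ∀ s ∈ I,
      (e * (d * (p : ℤ) ^ 2 * ((p : ℤ) ^ 2 - 1) ^ 2)) • c s = s • g - g := by
  classical
  set f := mzf3_coc_aff c hc with hf
  -- the nilpotent operator `N = τ - 1`
  set N : G →+ G := DistribSMul.toAddMonoidHom G τ - AddMonoidHom.id G with hN
  have Napp : ∀ x : G, N x = τ • x - x := fun x => rfl
  have τapp : ∀ x : G, τ • x = x + N x := fun x => by rw [Napp]; abel
  have NN : ∀ x : G, N (N x) = 0 := by
    intro x
    have h := H1 x
    rw [two_smul] at h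
    rw [Napp, Napp, smul_sub]
    rw [← h]
    abel
  have NZ : ∀ (n : ℤ) (x : G), N (n • x) = n • N x := fun n x => map_zsmul N n x
  -- powers of `τ`
  have tpow : ∀ (j : ℕ) (x : G), (τ ^ j) • x = x + j • N x := by
    intro j
    induction j with
    | zero => intro x; simp
    | succ j ih =>
      intro x
      rw [pow_succ', mul_smul, ih x, smul_add, smul_comm τ j (N x), τapp x, τapp (N x), NN,
        add_zero, succ_nsmul]
      abel
  -- the cocycle at powers of `τ`
  have cpow : ∀ j : ℕ, ∃ y : G, c (τ ^ j) = j • c τ + N y := by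
    intro j
    induction j with
    | zero => exact ⟨0, by simp [mzf3_coc_one hc]⟩
    | succ j ih =>
      obtain ⟨y, hy⟩ := ih
      refine ⟨y + j • c τ, ?_⟩
      rw [pow_succ, hc, hy, tpow, map_add, map_nsmul, succ_nsmul]
      abel
  -- consequences of (H2)
  have h2 : ∀ x : G, (φ * τ * φ⁻¹) • x + c (φ * τ * φ⁻¹) = (τ ^ p) • x + c (τ ^ p) := by
    intro x
    have h := DFunLike.congr_fun H2 x
    rw [← map_pow] at h
    exact h
  have h20 : c (φ * τ * φ⁻¹) = c (τ ^ p) := by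
    have h := h2 0
    rwa [smul_zero, smul_zero, zero_add, zero_add] at h
  have hlin : ∀ x : G, (φ * τ * φ⁻¹) • x = (τ ^ p) • x := by
    intro x
    have h := h2 x
    rw [h20] at h
    exact add_right_cancel h
  -- the cocycle identity
  have hconj : c (φ * τ * φ⁻¹) = c φ + φ • c τ - (φ * τ * φ⁻¹) • c φ := by
    rw [hc (φ * τ) φ⁻¹, hc φ τ, mzf3_coc_inv hc φ, smul_neg, mul_smul (φ * τ) φ⁻¹ (c φ)]
    abel
  obtain ⟨y, hy⟩ := cpow p
  -- `(φ - p) c₀ ∈ N G`
  have hstar : φ • c τ = p • c τ + N (y + p • c φ) := by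
    have h1 : c φ + φ • c τ - (φ * τ * φ⁻¹) • c φ = p • c τ + N y := by
      rw [← hconj, h20, hy]
    rw [hlin, tpow] at h1
    rw [map_add, map_nsmul]
    have h3 : φ • c τ = (c φ + φ • c τ - (c φ + p • N (c φ))) + p • N (c φ) := by abel
    rw [h3, h1]
    abel
  -- `φ N = p N φ`
  have hφN : ∀ w : G, φ • N w = p • N (φ • w) := by
    intro w
    have h := hlin (φ • w)
    rw [tpow] at h
    have e1 : (φ * τ * φ⁻¹) • φ • w = φ • τ • w := by
      rw [← mul_smul, mul_assoc, inv_mul_cancel, mul_one, mul_smul]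
    rw [e1] at h
    rw [Napp, smul_sub, h]
    abel
  -- `τ`-fixed elements are `I`-fixed
  have hfix : ∀ v : G, τ • v = v → ∀ s ∈ I, s • v = v := by
    intro v hv s hs
    obtain ⟨j, hj⟩ := Subgroup.mem_zpowers_iff.1 (H3 s hs)
    rw [← map_zpow] at hj
    have h1 : ∀ x : G, (τ ^ j) • x + c (τ ^ j) = s • x + c s := fun x => DFunLike.congr_fun hj x
    have h0 := h1 0
    rw [smul_zero, smul_zero, zero_add, zero_add] at h0
    have h2' := h1 v
    rw [h0] at h2'
    have h3 : (τ ^ j) • v = s • v := add_right_cancel h2'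
    rw [← h3]
    have hmem : τ ^ j ∈ MulAction.stabilizer Γ v :=
      Subgroup.zpow_mem _ (MulAction.mem_stabilizer_iff.2 hv) j
    exact MulAction.mem_stabilizer_iff.1 hmem
  have hNfix : ∀ v : G, N v = 0 → ∀ s ∈ I, s • v = v := by
    intro v hv
    apply hfix
    rw [τapp, hv, add_zero]
  -- `u = N c₀`
  set u : G := N (c τ) with hu
  have hφu : φ • u = ((p : ℤ) ^ 2) • u := by
    rw [hu, hφN, hstar, map_add, map_nsmul, NN, add_zero, ← natCast_zsmul, ← natCast_zsmul,
      smul_smul, pow_two]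
  have hufix : ∀ s ∈ I, s • u = u := hNfix u (NN _)
  have h4 := H4 u hufix
  have hφu1 : φ • u - u = ((p : ℤ) ^ 2 - 1) • u := by
    rw [hφu, sub_smul, one_smul]
  have h5 : (d * (p : ℤ) ^ 2 * ((p : ℤ) ^ 2 - 1) ^ 2) • u = 0 := by
    rw [hφu1, smul_comm φ ((p : ℤ) ^ 2 - 1) u, smul_comm φ ((p : ℤ) ^ 2 - 1) (φ • u), hφu,
      smul_comm φ ((p : ℤ) ^ 2) u, hφu] at h4
    rw [← h4]
    module
  set n1 : ℤ := d * (p : ℤ) ^ 2 * ((p : ℤ) ^ 2 - 1) ^ 2 with hn1
  have h6 : N (n1 • c τ) = 0 := by rw [NZ, ← hu]; exact h5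
  obtain ⟨g, hg⟩ := H5 (n1 • c τ) (hNfix _ h6)
  refine ⟨g, fun s hs => ?_⟩
  -- the cocycle `(e n1) • c`
  have hc' := mzf3_coc_zsmul hc (e * n1)
  have hτ' : (fun s => (e * n1) • c s) τ = τ • g - g := by
    show (e * n1) • c τ = τ • g - g
    rw [mul_smul, hg]
  obtain ⟨j, hj⟩ := Subgroup.mem_zpowers_iff.1 (H3 s hs)
  rw [← map_zpow] at hj
  have h1 : ∀ x : G, (τ ^ j) • x + c (τ ^ j) = s • x + c s := fun x => DFunLike.congr_fun hj x
  have h0 := h1 0
  rw [smul_zero, smul_zero, zero_add, zero_add] at h0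
  have h2' := h1 g
  rw [h0] at h2'
  have h3 : (τ ^ j) • g = s • g := add_right_cancel h2'
  have h7 := mzf3_coc_zpow hc' g τ hτ' j
  have h8 : (e * n1) • c (τ ^ j) = (τ ^ j) • g - g := h7
  rw [← h0, h8, h3]

/-- powers of a unipotent `τ` (`(τ - 1)² = 0`): `τ ^ j = 1 + j (τ - 1)`. -/
theorem mzf3_coc_tpow (τ : Γ) (H1 : ∀ x : G, τ • τ • x - 2 • τ • x + x = 0) (j : ℕ) (x : G) :
    (τ ^ j) • x = x + j • (τ • x - x) := by
  have NN : ∀ x : G, τ • (τ • x - x) = τ • x - x := by
    intro x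
    have h := H1 x
    rw [two_smul] at h
    rw [smul_sub]
    have h2 : τ • τ • x - τ • x = (τ • τ • x - (τ • x + τ • x) + x) + (τ • x - x) := by abel
    rw [h2, h, zero_add]
  induction j with
  | zero => simp
  | succ j ih =>
    rw [pow_succ', mul_smul, ih, smul_add, smul_comm τ j (τ • x - x), NN, succ_nsmul]
    abel

/-- the cocycle at the powers of a unipotent `τ`: `c (τ ^ j) ∈ j c(τ) + (τ - 1) G`. -/
theorem mzf3_coc_cpow {c : Γ → G} (hc : mzf3_coc_IsCocycle c) (τ : Γ)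
    (H1 : ∀ x : G, τ • τ • x - 2 • τ • x + x = 0) (j : ℕ) :
    ∃ y : G, c (τ ^ j) = j • c τ + (τ • y - y) := by
  induction j with
  | zero => exact ⟨0, by simp [mzf3_coc_one hc]⟩
  | succ j ih =>
    obtain ⟨y, hy⟩ := ih
    refine ⟨y + j • c τ, ?_⟩
    rw [pow_succ, hc, hy, mzf3_coc_tpow τ H1, smul_add, smul_comm τ j (c τ), succ_nsmul, smul_sub]
    abel

/-- if `(τ - 1)² = 0` on `G` and `a • G = 0` then `f τ ^ (a * a) = 1`. -/
theorem mzf3_coc_aff_pow_eq_one {c : Γ → G} (hc : mzf3_coc_IsCocycle c) (τ : Γ)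
    (H1 : ∀ x : G, τ • τ • x - 2 • τ • x + x = 0) (a : ℕ) (ha : ∀ x : G, a • x = 0) :
    mzf3_coc_aff c hc τ ^ (a * a) = 1 := by
  have hρ : ∀ x : G, (τ ^ a) • x = x := fun x => by
    rw [mzf3_coc_tpow τ H1, ha, add_zero]
  have H1ρ : ∀ x : G, (τ ^ a) • (τ ^ a) • x - 2 • (τ ^ a) • x + x = 0 := fun x => by
    rw [hρ, hρ, two_smul]; abel
  obtain ⟨y, hy⟩ := mzf3_coc_cpow hc (τ ^ a) H1ρ a
  rw [ha, hρ, sub_self, add_zero] at hy
  rw [← map_pow, pow_mul]
  ext x
  show ((τ ^ a) ^ a) • x + c ((τ ^ a) ^ a) = x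
  rw [hy, add_zero, mzf3_coc_tpow (τ ^ a) H1ρ, hρ, sub_self, smul_zero, add_zero]

/-- if `f s` is a power of `f τ`, then `s` and that power of `τ` have the same linear part. -/
theorem mzf3_coc_fixed_of_zpowers {c : Γ → G} (hc : mzf3_coc_IsCocycle c) {τ s : Γ}
    (hs : mzf3_coc_aff c hc s ∈ Subgroup.zpowers (mzf3_coc_aff c hc τ)) {v : G} (hv : τ • v = v) :
    s • v = v := by
  obtain ⟨j, hj⟩ := Subgroup.mem_zpowers_iff.1 hs
  rw [← map_zpow] at hj
  have h1 : ∀ x : G, (τ ^ j) • x + c (τ ^ j) = s • x + c s := fun x => DFunLike.congr_fun hj x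
  have h0 := h1 0
  rw [smul_zero, smul_zero, zero_add, zero_add] at h0
  have h2' := h1 v
  rw [h0] at h2'
  have h3 : (τ ^ j) • v = s • v := add_right_cancel h2'
  rw [← h3]
  have hmem : τ ^ j ∈ MulAction.stabilizer Γ v :=
    Subgroup.zpow_mem _ (MulAction.mem_stabilizer_iff.2 hv) j
  exact MulAction.mem_stabilizer_iff.1 hmem

end Cocycle

end Fermat.Agent.MZ
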