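/-
MAZUR project (S15), node (F3) (helper14), cell (A3') + step (1) of route (B'): COUNTING WITH A
SQUARE-ZERO OPERATOR.  Prefix `mzf3_cnt_`.  Mathlib only.

`G` a finite abelian group, `N : G →+ G` with `N² = 0` (`N = τ - 1`, `τ` a generator of the image of
inertia), `K = ker N` (`= G^I`), `R = range N ⊆ K`.

* `mzf3_cnt_card_mul`   : `|K| · |R| = |G|`;
* `mzf3_cnt_card_le_sq` : `|G| ≤ |K|²`                       ((A3'): `δ_k ≤ h k`);
* `mzf3_cnt_exp`        : `|K|² ≤ C · |G|`  ⟹  `C! • K ⊆ R`   (step (1) of (B'): the input (H5) of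
                          `mzf3_coc_main` from the count (CNT-I)).
-/
import Mathlib

set_option autoImplicit false
set_option linter.unusedSectionVars false

namespace Fermat.Agent.MZ

section Count

variable {G : Type*} [AddCommGroup G] [Finite G] (N : G →+ G)

theorem mzf3_cnt_card_mul : Nat.card ↥N.ker * Nat.card ↥N.range = Nat.card G := by
  rw [← AddSubgroup.index_ker]
  exact AddSubgroup.card_mul_index N.ker

variable (hNN : ∀ x : G, N (N x) = 0)

include hNN in
theorem mzf3_cnt_range_le_ker : N.range ≤ N.ker := by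
  rintro _ ⟨x, rfl⟩
  exact (AddMonoidHom.mem_ker).2 (hNN x)

include hNN in
/-- **(A3')** `|G| ≤ |ker N|²`. -/
theorem mzf3_cnt_card_le_sq : Nat.card G ≤ Nat.card ↥N.ker ^ 2 := by
  rw [← mzf3_cnt_card_mul N, pow_two]
  exact Nat.mul_le_mul_left _ (AddSubgroup.card_le_of_le (mzf3_cnt_range_le_ker N hNN))

include hNN in
theorem mzf3_cnt_relIndex_mul :
    N.range.relIndex N.ker * Nat.card ↥N.range = Nat.card ↥N.ker := by
  have h1 := AddSubgroup.card_mul_index (N.range.addSubgroupOf N.ker)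
  have h2 : Nat.card ↥(N.range.addSubgroupOf N.ker) = Nat.card ↥N.range :=
    Nat.card_congr (AddSubgroup.addSubgroupOfEquivOfLe (mzf3_cnt_range_le_ker N hNN)).toEquiv
  rw [h2] at h1
  rw [mul_comm]
  exact h1

include hNN in
/-- **step (1) of (B')**: if `|ker N|² ≤ C |G|` then `C!` maps `ker N` into `range N`. -/
theorem mzf3_cnt_exp (C : ℕ) (hC : Nat.card ↥N.ker ^ 2 ≤ C * Nat.card G) (u : G) (hu : N u = 0) :
    ∃ g : G, C.factorial • u = N g := by
  have hK : 0 < Nat.card ↥N.ker := Nat.card_pos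
  have hR : 0 < Nat.card ↥N.range := Nat.card_pos
  have hrel := mzf3_cnt_relIndex_mul N hNN
  have hmul := mzf3_cnt_card_mul N
  -- `relIndex ≤ C`
  have h1 : Nat.card ↥N.ker ≤ C * Nat.card ↥N.range := by
    rw [← hmul, pow_two] at hC
    have h2 : Nat.card ↥N.ker * Nat.card ↥N.ker ≤
        Nat.card ↥N.ker * (C * Nat.card ↥N.range) := by
      calc Nat.card ↥N.ker * Nat.card ↥N.ker ≤ C * (Nat.card ↥N.ker * Nat.card ↥N.range) := hC
        _ = Nat.card ↥N.ker * (C * Nat.card ↥N.range) := by ring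
    exact Nat.le_of_mul_le_mul_left h2 hK
  have h3 : N.range.relIndex N.ker ≤ C := by
    rw [← hrel] at h1
    exact Nat.le_of_mul_le_mul_right h1 hR
  have h4 : 0 < N.range.relIndex N.ker := by
    rcases Nat.eq_zero_or_pos (N.range.relIndex N.ker) with h | h
    · rw [h, zero_mul] at hrel; omega
    · exact h
  have hdvd : N.range.relIndex N.ker ∣ C.factorial := Nat.dvd_factorial h4 h3
  -- the index kills the quotient
  have h5 : N.range.relIndex N.ker • (⟨u, (AddMonoidHom.mem_ker).2 hu⟩ : ↥N.ker) ∈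
      N.range.addSubgroupOf N.ker := AddSubgroup.nsmul_index_mem _ _
  obtain ⟨m, hm⟩ := hdvd
  have h6 : C.factorial • (⟨u, (AddMonoidHom.mem_ker).2 hu⟩ : ↥N.ker) ∈
      N.range.addSubgroupOf N.ker := by
    rw [hm, mul_comm, mul_smul]
    exact AddSubgroup.nsmul_mem _ h5 m
  have h7 : ((C.factorial • (⟨u, (AddMonoidHom.mem_ker).2 hu⟩ : ↥N.ker) : ↥N.ker) : G) ∈
      N.range := h6
  obtain ⟨g, hg⟩ := h7
  exact ⟨g, by rw [hg]; rfl⟩

end Count

end Fermat.Agent.MZ
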