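/-
MAZUR project (S15), node [MZ-F'] route (B') (helper14), cell (K3): KUMMER CLASSES AND INERTIA AT THE
LEVEL.  Prefix `mzf3_ki_`.

`p` prime (the level), `r ≠ p` prime, `A` a valuation ring of `Q̄` over `p`, `I` its inertia group.
`W k ≤ J₀(p)[r ^ k]` a family of `G_ℚ`-stable subgroups.  Inputs:

* `htor`  (K2, toric clause at level `p`): `d (φ² - p²)(φ - 1) = 0` on the `I`-fixed prime-to-`p`
          torsion of `J₀(p)`, `φ` a Frobenius at `A`;
* `hcnt`  (CNT-I, from the global count): `|W_k^I|² ≤ C |W_k|` for all `k`.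

Output `mzf3_ki_main` (F'-coh): there is `i₀` such that for every `k` and every continuous cocycle
`c : G_ℚ → W k` the cocycle `r ^ i₀ • c` restricted to `I` is a coboundary of `W k`.

Ingredients: (A1) `mzf3_unip`, (A2) `mzf3_cyclic'`, the tame-Frobenius relation `mzf3_tfa_exists`
(helper26), the abstract cocycle lemma `mzf3_coc_main`, the count `mzf3_cnt_exp`.
-/
import Mathlib
import Fermat.Agent.MZ.F3.Unip
import Fermat.Agent.MZ.F3.TameCyclic
import Fermat.Agent.MZ.F3.TameFrobAt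
import Fermat.Agent.MZ.F3.Cocycle
import Fermat.Agent.MZ.F3.Count
import Fermat.Agent.JT3.ES.Smooth
import Fermat.Agent.JT3.Tate.JZeroLattice

set_option autoImplicit false
set_option linter.unusedSectionVars false
set_option linter.style.haveILetI false

noncomputable section

namespace Fermat.Agent.MZ

open ModularCurve Fermat.Agent.JT3

local notation "Qb" => AlgebraicClosure ℚ
local notation "GQ" => (AlgebraicClosure ℚ ≃ₐ[ℚ] AlgebraicClosure ℚ)

/-- the `G_ℚ`-action on a stable subgroup. -/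
@[reducible] def mzf3_ki_act {J : Type*} [AddCommGroup J] [DistribMulAction GQ J]
    (W : AddSubgroup J) (hW : ∀ (σ : GQ), ∀ x ∈ W, σ • x ∈ W) : DistribMulAction GQ ↥W where
  smul σ x := ⟨σ • x.1, hW σ x.1 x.2⟩
  one_smul x := Subtype.ext (one_smul GQ x.1)
  mul_smul σ τ x := Subtype.ext (mul_smul σ τ x.1)
  smul_zero σ := Subtype.ext (smul_zero σ)
  smul_add σ x y := Subtype.ext (smul_add σ x.1 y.1)

/-- **(F'-coh)**: Kummer-type cocycles with values in `W k` are coboundaries on the inertia group at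
the level `p`, up to the fixed factor `r ^ i₀`. -/
theorem mzf3_ki_main (p : ℕ) [NeZero p] (hp : p.Prime) (r : ℕ) (hr : r.Prime) (hrp : r ≠ p)
    (A : ValuationSubring Qb) (hA : A.LiesOverPrime p)
    (htor : ∀ φ : GQ, A.IsFrobeniusAt φ p → ∃ d : ℕ, d ≠ 0 ∧ ∀ m : ℕ, ¬ p ∣ m →
      ∀ z : JZero p, m • z = 0 → (∀ s ∈ A.inertiaSubgroupIn ℚ, s • z = z) →
        d • (φ • (φ • (φ • z - z)) - (p ^ 2) • (φ • z - z)) = 0)
    (W : ℕ → AddSubgroup (JZero p)) (hWt : ∀ k, ∀ x ∈ W k, r ^ k • x = 0)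
    (hWs : ∀ k (σ : GQ), ∀ x ∈ W k, σ • x ∈ W k)
    (C : ℕ)
    (hcnt : ∀ k, Nat.card {x : ↥(W k) // ∀ σ ∈ A.inertiaSubgroupIn ℚ, σ • (x : JZero p) = x} ^ 2 ≤
      C * Nat.card ↥(W k)) :
    ∃ i₀ : ℕ, ∀ k : ℕ, ∀ c : GQ → JZero p, (∀ σ, c σ ∈ W k) →
      (∀ σ τ : GQ, c (σ * τ) = c σ + σ • c τ) →
      (∃ K : IntermediateField ℚ Qb, FiniteDimensional ℚ K ∧
        ∀ σ : GQ, (∀ y ∈ K, σ y = y) → c σ = 0) →
      ∃ g ∈ W k, ∀ σ ∈ A.inertiaSubgroupIn ℚ, r ^ i₀ • c σ = σ • g - g := by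
  classical
  haveI : Fact r.Prime := ⟨hr⟩
  obtain ⟨φ, hφ, hφA, hφconj, hφrel⟩ := mzf3_tfa_exists A hp hA
  obtain ⟨d, hd, htor'⟩ := htor φ hφ
  have hp2 : 2 ≤ p := hp.two_le
  have hpp : 1 ≤ p ^ 2 := Nat.one_le_pow _ _ hp.pos
  have hpp1 : p ^ 2 - 1 ≠ 0 := by
    have : 4 ≤ p ^ 2 := by nlinarith
    omega
  set n : ℕ := C.factorial * (d * p ^ 2 * (p ^ 2 - 1) ^ 2) with hn
  have hn0 : n ≠ 0 := by
    rw [hn]
    exact mul_ne_zero (Nat.factorial_ne_zero C)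
      (mul_ne_zero (mul_ne_zero hd (pow_ne_zero 2 hp.ne_zero)) (pow_ne_zero 2 hpp1))
  obtain ⟨i₀, n', hn', hnn⟩ := Nat.exists_eq_pow_mul_and_not_dvd hn0 r hr.ne_one
  refine ⟨i₀, ?_⟩
  rintro k c hcW hcoc ⟨K, hKfin, hK⟩
  -- the module `G = W k`
  letI act : DistribMulAction GQ ↥(W k) := mzf3_ki_act (W k) (hWs k)
  have hsm : ∀ (σ : GQ) (x : ↥(W k)), ((σ • x : ↥(W k)) : JZero p) = σ • (x : JZero p) :=
    fun σ x => rfl
  haveI : Finite {x : JZero p // r ^ k • x = 0} := tj_finite p r k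
  haveI : Finite ↥(W k) :=
    Finite.of_injective (fun x : ↥(W k) => (⟨x.1, hWt k x.1 x.2⟩ : {x : JZero p // r ^ k • x = 0}))
      (fun a b h => Subtype.ext (by
        have h' := congrArg Subtype.val h
        exact h'))
  have hkill : ∀ x : ↥(W k), r ^ k • x = 0 := fun x => Subtype.ext (hWt k x.1 x.2)
  let c' : GQ → ↥(W k) := fun σ => ⟨c σ, hcW σ⟩
  have hc' : mzf3_coc_IsCocycle c' := fun s t => Subtype.ext (hcoc s t)
  set f := mzf3_coc_aff c' hc' with hf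
  set I := A.inertiaSubgroupIn ℚ with hI
  -- unipotency
  have hp2N : ¬ p ^ 2 ∣ p := by
    intro h
    have := Nat.le_of_dvd hp.pos h
    nlinarith
  have hun : ∀ σ ∈ I, ∀ x : ↥(W k), σ • σ • x - 2 • σ • x + x = 0 := fun σ hσ x =>
    Subtype.ext (mzf3_unip p p hp (dvd_refl p) hp2N A hA σ hσ r hr hrp k x.1 (hWt k x.1 x.2))
  -- a finite level
  have hfixx : ∀ x : ↥(W k), ∃ L : IntermediateField ℚ Qb, FiniteDimensional ℚ L ∧
      ∀ σ : GQ, (∀ y ∈ L, σ y = y) → σ • x.1 = x.1 := fun x => egs_exists_fixing p x.1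
  choose L hLfin hLfix using hfixx
  let L1 : IntermediateField ℚ Qb := K ⊔ ⨆ x, L x
  haveI : FiniteDimensional ℚ ↥L1 := by
    haveI := hKfin
    haveI := hLfin
    haveI : FiniteDimensional ℚ ↥(⨆ x, L x) := IntermediateField.finiteDimensional_iSup_of_finite
    exact IntermediateField.finiteDimensional_sup K (⨆ x, L x)
  have hL1 : ∀ σ : GQ, (∀ y ∈ L1, σ y = y) → f σ = 1 := by
    intro σ hσ
    ext x
    show ((σ • x + c' σ : ↥(W k)) : JZero p) = x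
    have h1 : c σ = 0 := hK σ (fun y hy => hσ y ((le_sup_left : K ≤ L1) hy))
    have h2 : σ • x.1 = x.1 := hLfix x σ (fun y hy =>
      hσ y ((le_sup_right : (⨆ x, L x) ≤ L1) ((le_iSup L x : L x ≤ ⨆ x, L x) hy)))
    show σ • x.1 + c σ = x.1
    rw [h1, h2, add_zero]
  -- orders
  have hord : ∀ σ ∈ I, f σ ^ r ^ (k + k) = 1 := fun σ hσ => by
    rw [pow_add]
    exact mzf3_coc_aff_pow_eq_one hc' σ (hun σ hσ) (r ^ k) hkill
  have hcop : ∀ σ ∈ I, (orderOf (f σ)).Coprime p := fun σ hσ => by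
    have h1 : orderOf (f σ) ∣ r ^ (k + k) := orderOf_dvd_of_pow_eq_one (hord σ hσ)
    obtain ⟨j, -, hj⟩ := (Nat.dvd_prime_pow hr).1 h1
    rw [hj]
    exact Nat.Coprime.pow_left j ((Nat.coprime_primes hr hp).2 hrp)
  -- tame inertia is cyclic
  obtain ⟨τ, hτ, hcyc⟩ := mzf3_cyclic' A hp hA f hr hrp L1 hL1
    (fun σ hσ => ⟨k + k, hord σ hσ⟩)
  -- tame Frobenius
  have H2 : f (φ * τ * φ⁻¹) = f τ ^ p := hφrel (Equiv.Perm ↥(W k)) L1 f hL1 hcop τ hτ
  -- toric clause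
  have hprk : ¬ p ∣ r ^ k := fun h => hrp ((Nat.prime_dvd_prime_iff_eq hp hr).1 (hp.dvd_of_dvd_pow h)).symm
  have H4 : ∀ u : ↥(W k), (∀ s ∈ I, s • u = u) →
      (d : ℤ) • (φ • φ • (φ • u - u) - ((p : ℤ) ^ 2) • (φ • u - u)) = 0 := by
    intro u hu
    have h := htor' (r ^ k) hprk u.1 (hWt k u.1 u.2) (fun s hs => congrArg Subtype.val (hu s hs))
    have hcast : ((p : ℤ) ^ 2) = ((p ^ 2 : ℕ) : ℤ) := by push_cast; ring
    rw [hcast, natCast_zsmul, natCast_zsmul]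
    exact Subtype.ext h
  -- the count
  set N : ↥(W k) →+ ↥(W k) := DistribSMul.toAddMonoidHom ↥(W k) τ - AddMonoidHom.id ↥(W k) with hN
  have Napp : ∀ x : ↥(W k), N x = τ • x - x := fun x => rfl
  have hNN : ∀ x : ↥(W k), N (N x) = 0 := by
    intro x
    have h := hun τ hτ x
    rw [two_smul] at h
    rw [Napp, Napp, smul_sub, ← h]
    abel
  have hker : ∀ x : ↥(W k), x ∈ N.ker ↔ ∀ σ ∈ I, σ • (x : JZero p) = x := by
    intro x
    rw [AddMonoidHom.mem_ker, Napp, sub_eq_zero]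
    constructor
    · intro hx σ hσ
      have := mzf3_coc_fixed_of_zpowers hc' (hcyc σ hσ) hx
      exact congrArg Subtype.val this
    · intro hx
      exact Subtype.ext (hx τ hτ)
  have hcard : Nat.card ↥N.ker =
      Nat.card {x : ↥(W k) // ∀ σ ∈ A.inertiaSubgroupIn ℚ, σ • (x : JZero p) = x} :=
    Nat.card_congr (Equiv.subtypeEquivRight hker)
  have hC : Nat.card ↥N.ker ^ 2 ≤ C * Nat.card ↥(W k) := by rw [hcard]; exact hcnt k
  have H5 : ∀ u : ↥(W k), (∀ s ∈ I, s • u = u) → ∃ g : ↥(W k), (C.factorial : ℤ) • u = τ • g - g := by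
    intro u hu
    have hu0 : N u = 0 := by rw [Napp, hu τ hτ, sub_self]
    obtain ⟨g, hg⟩ := mzf3_cnt_exp N hNN C hC u hu0
    exact ⟨g, by rw [natCast_zsmul, hg, Napp]⟩
  -- the abstract lemma
  obtain ⟨g, hg⟩ := mzf3_coc_main c' hc' I τ φ p (hun τ hτ) H2 hcyc (d : ℤ) H4 (C.factorial : ℤ) H5
  have hnZ : ((C.factorial : ℤ) * ((d : ℤ) * (p : ℤ) ^ 2 * ((p : ℤ) ^ 2 - 1) ^ 2)) = ((n : ℕ) : ℤ) := by
    rw [hn]
    push_cast [Nat.cast_sub hpp]
    ring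
  -- remove the prime-to-`r` part
  have hcopn : IsCoprime (n' : ℤ) ((r ^ k : ℕ) : ℤ) := by
    rw [Nat.isCoprime_iff_coprime]
    exact Nat.Coprime.pow_right k (((Nat.Prime.coprime_iff_not_dvd hr).2 hn').symm)
  obtain ⟨a, b, hab⟩ := hcopn
  have hone : ∀ x : ↥(W k), a • (n' • x) = x := by
    intro x
    have h1 : ((a * (n' : ℤ) + b * ((r ^ k : ℕ) : ℤ)) : ℤ) • x = x := by rw [hab, one_smul]
    rw [add_zsmul, mul_zsmul, mul_zsmul, natCast_zsmul, natCast_zsmul, hkill, zsmul_zero,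
      add_zero] at h1
    exact h1
  refine ⟨((a • g : ↥(W k)) : JZero p), (a • g).2, fun σ hσ => ?_⟩
  have h1 := hg σ hσ
  rw [hnZ, natCast_zsmul, hnn, mul_nsmul] at h1
  -- `n' • r ^ i₀ • c' σ = σ • g - g`
  have h2 : r ^ i₀ • c' σ = σ • (a • g) - a • g := by
    rw [← hone (r ^ i₀ • c' σ), h1, zsmul_sub, smul_comm σ a g]
  exact congrArg Subtype.val h2

end Fermat.Agent.MZ
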