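/-
MAZUR project (S15), node (F3) (helper14), cell (A3') in consumer form.  Prefix `mzf3_ci_`.

`q ‖ N`, `A` a valuation ring of `Q̄` over `q`, `I` its inertia group, `r ≠ q` prime, `W ≤ J₀(N)[r^k]`
a `G_ℚ`-stable subgroup.  Then

  `mzf3_ci_card : Nat.card W ≤ (Nat.card W^I) ^ 2`        (`δ_k ≤ h k`).

Proof: `I` acts on `W` through a cyclic group `⟨τ⟩` (`mzf3_cyclic'`), unipotently (`mzf3_unip`), so
`W^I = ker (τ - 1)`, `(τ - 1)² = 0`, and `mzf3_cnt_card_le_sq`.  Also exported: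
`mzf3_ci_exists_gen` (the generator `τ` with `W^I = W^τ`).
-/
import Mathlib
import Fermat.Agent.MZ.F3.Unip
import Fermat.Agent.MZ.F3.TameCyclic
import Fermat.Agent.MZ.F3.Cocycle
import Fermat.Agent.MZ.F3.Count
import Fermat.Agent.MZ.F3.KummerInertia
import Fermat.Agent.JT3.ES.Smooth
import Fermat.Agent.JT3.Tate.JZeroLattice

set_option autoImplicit false
set_option linter.unusedSectionVars false
set_option linter.style.haveILetI false

noncomputable section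

namespace Fermat.Agent.MZ

open ModularCurve Fermat.Agent.JT3

local notation "Qb" => AlgebraicClosure ℚ
local notation "GQ" => (AlgebraicClosure ℚ ≃ₐ[ℚ] AlgebraicClosure ℚ)

variable (N : ℕ) [NeZero N]

/-- the inertia group at `q ‖ N` acts on a stable subgroup `W ≤ J₀(N)[r ^ k]` through a cyclic group:
there is `τ ∈ I` such that every `τ`-fixed element of `W` is `I`-fixed. -/
theorem mzf3_ci_exists_gen (q : ℕ) (hq : q.Prime) (hqN : q ∣ N) (hq2 : ¬ q ^ 2 ∣ N)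
    (A : ValuationSubring Qb) (hA : A.LiesOverPrime q) (r : ℕ) (hr : r.Prime) (hrq : r ≠ q)
    (k : ℕ) (W : AddSubgroup (JZero N)) (hWt : ∀ x ∈ W, r ^ k • x = 0)
    (hWs : ∀ (σ : GQ), ∀ x ∈ W, σ • x ∈ W) :
    ∃ τ ∈ A.inertiaSubgroupIn ℚ, ∀ x ∈ W, τ • x = x → ∀ σ ∈ A.inertiaSubgroupIn ℚ, σ • x = x := by
  classical
  haveI : Fact r.Prime := ⟨hr⟩
  letI act : DistribMulAction GQ ↥W := mzf3_ki_act W hWs
  haveI : Finite {x : JZero N // r ^ k • x = 0} := tj_finite N r k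
  haveI : Finite ↥W :=
    Finite.of_injective (fun x : ↥W => (⟨x.1, hWt x.1 x.2⟩ : {x : JZero N // r ^ k • x = 0}))
      (fun a b h => Subtype.ext (by
        have h' := congrArg Subtype.val h
        exact h'))
  have hkill : ∀ x : ↥W, r ^ k • x = 0 := fun x => Subtype.ext (hWt x.1 x.2)
  let c' : GQ → ↥W := fun _ => 0
  have hc' : mzf3_coc_IsCocycle c' := fun s t => by
    show (0 : ↥W) = 0 + s • (0 : ↥W)
    rw [smul_zero, add_zero]
  set f := mzf3_coc_aff c' hc' with hf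
  set I := A.inertiaSubgroupIn ℚ with hI
  have hun : ∀ σ ∈ I, ∀ x : ↥W, σ • σ • x - 2 • σ • x + x = 0 := fun σ hσ x =>
    Subtype.ext (mzf3_unip N q hq hqN hq2 A hA σ hσ r hr hrq k x.1 (hWt x.1 x.2))
  have hfixx : ∀ x : ↥W, ∃ L : IntermediateField ℚ Qb, FiniteDimensional ℚ L ∧
      ∀ σ : GQ, (∀ y ∈ L, σ y = y) → σ • x.1 = x.1 := fun x => egs_exists_fixing N x.1
  choose L hLfin hLfix using hfixx
  let L1 : IntermediateField ℚ Qb := ⨆ x, L x
  haveI : FiniteDimensional ℚ ↥L1 := by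
    haveI := hLfin
    exact IntermediateField.finiteDimensional_iSup_of_finite
  have hL1 : ∀ σ : GQ, (∀ y ∈ L1, σ y = y) → f σ = 1 := by
    intro σ hσ
    ext x
    have h2 : σ • x.1 = x.1 := hLfix x σ (fun y hy =>
      hσ y ((le_iSup L x : L x ≤ ⨆ x, L x) hy))
    show σ • x.1 + (0 : JZero N) = x.1
    rw [h2, add_zero]
  have hord : ∀ σ ∈ I, f σ ^ r ^ (k + k) = 1 := fun σ hσ => by
    rw [pow_add]
    exact mzf3_coc_aff_pow_eq_one hc' σ (hun σ hσ) (r ^ k) hkill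
  obtain ⟨τ, hτ, hcyc⟩ := mzf3_cyclic' A hq hA f hr hrq L1 hL1
    (fun σ hσ => ⟨k + k, hord σ hσ⟩)
  refine ⟨τ, hτ, fun x hx hτx σ hσ => ?_⟩
  have h1 : τ • (⟨x, hx⟩ : ↥W) = ⟨x, hx⟩ := Subtype.ext hτx
  have := mzf3_coc_fixed_of_zpowers hc' (hcyc σ hσ) h1
  exact congrArg Subtype.val this

/-- **(A3'), consumer form**: `|W| ≤ |W^I|²` for every `G_ℚ`-stable `W ≤ J₀(N)[r ^ k]`, `I` the
inertia group at a prime `q ‖ N`, `r ≠ q`. -/
theorem mzf3_ci_card (q : ℕ) (hq : q.Prime) (hqN : q ∣ N) (hq2 : ¬ q ^ 2 ∣ N)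
    (A : ValuationSubring Qb) (hA : A.LiesOverPrime q) (r : ℕ) (hr : r.Prime) (hrq : r ≠ q)
    (k : ℕ) (W : AddSubgroup (JZero N)) (hWt : ∀ x ∈ W, r ^ k • x = 0)
    (hWs : ∀ (σ : GQ), ∀ x ∈ W, σ • x ∈ W) :
    Nat.card ↥W ≤
      Nat.card {x : ↥W // ∀ σ ∈ A.inertiaSubgroupIn ℚ, σ • (x : JZero N) = x} ^ 2 := by
  classical
  haveI : Fact r.Prime := ⟨hr⟩
  obtain ⟨τ, hτ, hgen⟩ := mzf3_ci_exists_gen N q hq hqN hq2 A hA r hr hrq k W hWt hWs
  letI act : DistribMulAction GQ ↥W := mzf3_ki_act W hWs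
  haveI : Finite {x : JZero N // r ^ k • x = 0} := tj_finite N r k
  haveI : Finite ↥W :=
    Finite.of_injective (fun x : ↥W => (⟨x.1, hWt x.1 x.2⟩ : {x : JZero N // r ^ k • x = 0}))
      (fun a b h => Subtype.ext (by
        have h' := congrArg Subtype.val h
        exact h'))
  set Nτ : ↥W →+ ↥W := DistribSMul.toAddMonoidHom ↥W τ - AddMonoidHom.id ↥W with hN
  have Napp : ∀ x : ↥W, Nτ x = τ • x - x := fun x => rfl
  have hNN : ∀ x : ↥W, Nτ (Nτ x) = 0 := by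
    intro x
    have h : τ • τ • x - 2 • τ • x + x = 0 :=
      Subtype.ext (mzf3_unip N q hq hqN hq2 A hA τ hτ r hr hrq k x.1 (hWt x.1 x.2))
    rw [two_smul] at h
    rw [Napp, Napp, smul_sub, ← h]
    abel
  have hker : ∀ x : ↥W, x ∈ Nτ.ker ↔ ∀ σ ∈ A.inertiaSubgroupIn ℚ, σ • (x : JZero N) = x := by
    intro x
    rw [AddMonoidHom.mem_ker, Napp, sub_eq_zero]
    constructor
    · intro hx
      exact hgen x.1 x.2 (congrArg Subtype.val hx)
    · intro hx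
      exact Subtype.ext (hx τ hτ)
  have hcard : Nat.card ↥Nτ.ker =
      Nat.card {x : ↥W // ∀ σ ∈ A.inertiaSubgroupIn ℚ, σ • (x : JZero N) = x} :=
    Nat.card_congr (Equiv.subtypeEquivRight hker)
  rw [← hcard]
  exact mzf3_cnt_card_le_sq Nτ hNN

end Fermat.Agent.MZ
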