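/-
MAZUR project (S15), node [MZ-F'] route (B') (helper14): THE BRIDGE FROM THE SELMER BOUND TO (CNT-I).
Prefix `mzf3_cb_`.

The [F-DESC] inequality `mzds_main` at `L = ⊥` reads
  `r ^ a * |H⁰(I_p, W)| ≤ |H⁰(G_ℚ, W)| * |W|`      (`a = #(ℤ/r-constituents)`),
and (F2) gives `|W| ≤ r ^ (2 a)`.  Together: `|W^{I_p}|² ≤ |W^{G_ℚ}|² |W|`  (CNT-I).

* `mzf3_cb_arith` : the arithmetic;
* `mzf3_cb_card`  : `Nat.card (mzh_H0 ↥I ↥W) = Nat.card {x : ↥W // ∀ σ ∈ I, σ • x = x}`;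
* `mzf3_cb_main`  : the hypothesis `hcnt` of `mzf3_ki_main` / `mzf3_ki_all` from the two inputs.
-/
import Mathlib
import Fermat.Agent.MZ.H.Coh

set_option autoImplicit false
set_option linter.unusedSectionVars false
set_option linter.style.haveILetI false

namespace Fermat.Agent.MZ

/-- the arithmetic of (CNT-I). -/
theorem mzf3_cb_arith (r a w wI wG : ℕ) (h1 : r ^ a * wI ≤ wG * w) (h2 : w ≤ r ^ (2 * a))
    (hw : 0 < w) : wI ^ 2 ≤ wG ^ 2 * w := by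
  have h3 : wI ^ 2 * w ≤ wG ^ 2 * w * w := by
    calc wI ^ 2 * w ≤ wI ^ 2 * r ^ (2 * a) := Nat.mul_le_mul_left _ h2
      _ = (r ^ a * wI) ^ 2 := by ring
      _ ≤ (wG * w) ^ 2 := Nat.pow_le_pow_left h1 2
      _ = wG ^ 2 * w * w := by ring
  exact Nat.le_of_mul_le_mul_right h3 hw

section Card

variable {Γ : Type*} [Group Γ] {J : Type*} [AddCommGroup J] [DistribMulAction Γ J]
  (W : AddSubgroup J) [iW : DistribMulAction Γ ↥W]
  (hcompat : ∀ (σ : Γ) (w : ↥W), ((σ • w : ↥W) : J) = σ • (w : J))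

include hcompat in
/-- the invariants of a subgroup `I ≤ Γ` on `W`, in the two spellings. -/
theorem mzf3_cb_card (I : Subgroup Γ) :
    Nat.card ↥(mzh_H0 ↥I ↥W) = Nat.card {x : ↥W // ∀ σ ∈ I, σ • (x : J) = x} := by
  refine Nat.card_congr (Equiv.subtypeEquivRight fun x => ?_)
  rw [mzh_mem_H0]
  constructor
  · intro h σ hσ
    have h1 := h ⟨σ, hσ⟩
    have h2 : ((σ • x : ↥W) : J) = x := congrArg Subtype.val h1
    rw [hcompat] at h2
    exact h2
  · intro h σ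
    apply Subtype.ext
    show (((σ : Γ) • x : ↥W) : J) = x
    rw [hcompat]
    exact h σ.1 σ.2

include hcompat in
theorem mzf3_cb_card_top :
    Nat.card ↥(mzh_H0 Γ ↥W) = Nat.card {x : ↥W // ∀ σ : Γ, σ • (x : J) = x} := by
  refine Nat.card_congr (Equiv.subtypeEquivRight fun x => ?_)
  rw [mzh_mem_H0]
  constructor
  · intro h σ
    have h2 : ((σ • x : ↥W) : J) = x := congrArg Subtype.val (h σ)
    rw [hcompat] at h2
    exact h2
  · intro h σ
    apply Subtype.ext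
    rw [hcompat]
    exact h σ

end Card

section Main

variable {Γ : Type*} [Group Γ] {J : Type*} [AddCommGroup J] [DistribMulAction Γ J]

/-- **(CNT-I)** from the Selmer inequality at `L = ⊥` and (F2): the hypothesis `hcnt` of
`mzf3_ki_main`, with `C = C₀ ^ 2`, `C₀` a bound for the `Γ`-invariants of the `W k`. -/
theorem mzf3_cb_main (I : Subgroup Γ) (W : ℕ → AddSubgroup J) (r : ℕ) (a : ℕ → ℕ) (C₀ : ℕ)
    (hfin : ∀ k, Finite ↥(W k))
    (hdesc : ∀ k, r ^ a k * Nat.card {x : ↥(W k) // ∀ σ ∈ I, σ • (x : J) = x} ≤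
      Nat.card {x : ↥(W k) // ∀ σ : Γ, σ • (x : J) = x} * Nat.card ↥(W k))
    (hF2 : ∀ k, Nat.card ↥(W k) ≤ r ^ (2 * a k))
    (hC₀ : ∀ k, Nat.card {x : ↥(W k) // ∀ σ : Γ, σ • (x : J) = x} ≤ C₀) :
    ∀ k, Nat.card {x : ↥(W k) // ∀ σ ∈ I, σ • (x : J) = x} ^ 2 ≤ C₀ ^ 2 * Nat.card ↥(W k) := by
  intro k
  haveI := hfin k
  have hw : 0 < Nat.card ↥(W k) := Nat.card_pos
  have h := mzf3_cb_arith r (a k) _ _ _ (hdesc k) (hF2 k) hw
  exact le_trans h (Nat.mul_le_mul_right _ (Nat.pow_le_pow_left (hC₀ k) 2))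

end Main

end Fermat.Agent.MZ
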