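/-
[MZ-F'] route (B'), cell "CountAbs" (abstract, Mathlib only; prefix `mzf3_ca_`).

`G` a finite abelian group, `N : G →+ G` with `N ∘ N = 0` (think `N = τ - 1` for a
generator `τ` of the image of tame inertia).  Then
* `mzf3_ca_card_eq`   : `card G = card (ker N) * card (range N)`;
* `mzf3_ca_card_le`   : `card G ≤ (card (ker N))^2`              (= (A3'));
* `mzf3_ca_main`      : if `(card (ker N))^2 ≤ C * card G` (= (CNT-I)) then there is
  `e` with `0 < e ≤ C` and `e • ker N ⊆ range N`, and `e = [ker N : range N]`.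
-/
import Mathlib

namespace Fermat.Agent.MZ

theorem mzf3_ca_card_eq {G : Type*} [AddCommGroup G] [Finite G] (N : G →+ G) :
    Nat.card G = Nat.card N.ker * Nat.card N.range := by
  have h1 := AddSubgroup.card_eq_card_quotient_mul_card_addSubgroup N.ker
  have h2 : Nat.card (G ⧸ N.ker) = Nat.card N.range :=
    Nat.card_congr (QuotientAddGroup.quotientKerEquivRange N).toEquiv
  rw [h1, h2, Nat.mul_comm]

theorem mzf3_ca_range_le_ker {G : Type*} [AddCommGroup G] (N : G →+ G)
    (hN : ∀ x, N (N x) = 0) : N.range ≤ N.ker := by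
  rintro _ ⟨x, rfl⟩
  exact (AddMonoidHom.mem_ker).2 (hN x)

theorem mzf3_ca_card_le {G : Type*} [AddCommGroup G] [Finite G] (N : G →+ G)
    (hN : ∀ x, N (N x) = 0) : Nat.card G ≤ (Nat.card N.ker) ^ 2 := by
  rw [mzf3_ca_card_eq N, sq]
  exact Nat.mul_le_mul_left _
    (AddSubgroup.card_le_of_le (mzf3_ca_range_le_ker N hN))

/-- The exponent statement: `[ker N : range N] • ker N ⊆ range N`. -/
theorem mzf3_ca_relIndex_smul {G : Type*} [AddCommGroup G] (N : G →+ G)
    {x : G} (hx : x ∈ N.ker) : (N.range.relIndex N.ker) • x ∈ N.range := by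
  have h := AddSubgroup.nsmul_index_mem (N.range.addSubgroupOf N.ker) (⟨x, hx⟩ : N.ker)
  rw [AddSubgroup.mem_addSubgroupOf] at h
  simpa [AddSubgroup.relIndex] using h

theorem mzf3_ca_relIndex_mul {G : Type*} [AddCommGroup G] (N : G →+ G)
    (hN : ∀ x, N (N x) = 0) :
    N.range.relIndex N.ker * Nat.card N.range = Nat.card N.ker := by
  have h1 := (N.range.addSubgroupOf N.ker).card_mul_index
  have h2 : Nat.card (N.range.addSubgroupOf N.ker) = Nat.card N.range :=
    Nat.card_congr (AddSubgroup.addSubgroupOfEquivOfLe (mzf3_ca_range_le_ker N hN)).toEquiv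
  rw [h2] at h1
  rw [Nat.mul_comm]
  exact h1

/-- Main count lemma. -/
theorem mzf3_ca_main {G : Type*} [AddCommGroup G] [Finite G] (N : G →+ G)
    (hN : ∀ x, N (N x) = 0) (C : ℕ) (hC : (Nat.card N.ker) ^ 2 ≤ C * Nat.card G) :
    ∃ e : ℕ, 0 < e ∧ e ≤ C ∧ ∀ x ∈ N.ker, e • x ∈ N.range := by
  refine ⟨N.range.relIndex N.ker, ?_, ?_, fun x hx => mzf3_ca_relIndex_smul N hx⟩
  · have h := mzf3_ca_relIndex_mul N hN
    have hk : 0 < Nat.card N.ker := Nat.card_pos
    rcases Nat.eq_zero_or_pos (N.range.relIndex N.ker) with h0 | h0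
    · rw [h0, Nat.zero_mul] at h; omega
    · exact h0
  · have h := mzf3_ca_relIndex_mul N hN
    have hk : 0 < Nat.card N.ker := Nat.card_pos
    have hr : 0 < Nat.card N.range := Nat.card_pos
    rw [mzf3_ca_card_eq N, sq] at hC
    -- e * r * k = k * k ≤ C * (k * r)
    set e := N.range.relIndex N.ker
    set k := Nat.card N.ker
    set r := Nat.card N.range
    have h3 : e * (k * r) ≤ C * (k * r) := by
      calc e * (k * r) = k * (e * r) := by ring
        _ = k * k := by rw [h]
        _ ≤ C * (k * r) := hC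
    exact Nat.le_of_mul_le_mul_right h3 (Nat.mul_pos hk hr)

end Fermat.Agent.MZ
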