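/-
MAZUR project (S15), node [MZ-F'] route (B') (helper14): (F'-coh) AT ALL PLACES OVER `p`, with a
uniform exponent.  Prefix `mzf3_ki_`.

`mzf3_ki_all`: same hypotheses as `mzf3_ki_main` (the toric clause and the count at ONE place `A`
over `p`); conclusion for EVERY place `A'` over `p` (conjugation by `ρ` with `ρ • A = A'`).
-/
import Mathlib
import Fermat.Agent.MZ.F3.KummerInertia
import Fermat.Agent.S55.Places.Basic
import Fermat.Agent.S55.LevelFields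

set_option autoImplicit false
set_option linter.unusedSectionVars false
set_option linter.style.haveILetI false

noncomputable section

namespace Fermat.Agent.MZ

open ModularCurve Fermat.Agent.JT3 Fermat.Agent.S55
open scoped Pointwise

local notation "Qb" => AlgebraicClosure ℚ
local notation "GQ" => (AlgebraicClosure ℚ ≃ₐ[ℚ] AlgebraicClosure ℚ)

/-- `smul_zero` through the `DistribMulAction` path (instance-robust form). -/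
theorem mzf3_ki_smul_zero {Γ J : Type*} [Group Γ] [AddCommGroup J] [DistribMulAction Γ J] (ρ : Γ) :
    ρ • (0 : J) = 0 := smul_zero ρ

/-- `smul_comm` with a natural number through the `DistribMulAction` path. -/
theorem mzf3_ki_smul_nsmul {Γ J : Type*} [Group Γ] [AddCommGroup J] [DistribMulAction Γ J] (ρ : Γ)
    (n : ℕ) (x : J) : ρ • n • x = n • ρ • x := smul_comm ρ n x

/-- **(F'-coh), all places over `p`, uniform exponent.** -/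
theorem mzf3_ki_all (p : ℕ) [NeZero p] (hp : p.Prime) (r : ℕ) (hr : r.Prime) (hrp : r ≠ p)
    (A : ValuationSubring Qb) (hA : A.LiesOverPrime p)
    (htor : ∀ φ : GQ, A.IsFrobeniusAt φ p → ∃ d : ℕ, d ≠ 0 ∧ ∀ m : ℕ, ¬ p ∣ m →
      ∀ z : JZero p, m • z = 0 → (∀ s ∈ A.inertiaSubgroupIn ℚ, s • z = z) →
        d • (φ • (φ • (φ • z - z)) - (p ^ 2) • (φ • z - z)) = 0)
    (W : ℕ → AddSubgroup (JZero p)) (hWt : ∀ k, ∀ x ∈ W k, r ^ k • x = 0)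
    (hWs : ∀ k (σ : GQ), ∀ x ∈ W k, σ • x ∈ W k)
    (C : ℕ)
    (hcnt : ∀ k, Nat.card {x : ↥(W k) // ∀ σ ∈ A.inertiaSubgroupIn ℚ, σ • (x : JZero p) = x} ^ 2 ≤
      C * Nat.card ↥(W k)) :
    ∃ i₀ : ℕ, ∀ k : ℕ, ∀ c : GQ → JZero p, (∀ σ, c σ ∈ W k) →
      (∀ σ τ : GQ, c (σ * τ) = c σ + σ • c τ) →
      (∃ K : IntermediateField ℚ Qb, FiniteDimensional ℚ K ∧
        ∀ σ : GQ, (∀ y ∈ K, σ y = y) → c σ = 0) →
      ∀ A' : ValuationSubring Qb, A'.LiesOverPrime p →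
        ∃ g ∈ W k, ∀ σ ∈ A'.inertiaSubgroupIn ℚ, r ^ i₀ • c σ = σ • g - g := by
  obtain ⟨i₀, hmain⟩ := mzf3_ki_main p hp r hr hrp A hA htor W hWt hWs C hcnt
  refine ⟨i₀, ?_⟩
  rintro k c hcW hcoc ⟨K, hKfin, hK⟩ A' hA'
  obtain ⟨ρ, rfl⟩ := pl_exists_smul_eq hp hA hA'
  -- the conjugated cocycle
  let c₁ : GQ → JZero p := fun σ => ρ⁻¹ • c (ρ * σ * ρ⁻¹)
  have hc₁W : ∀ σ, c₁ σ ∈ W k := fun σ => hWs k ρ⁻¹ _ (hcW _)
  have hc₁coc : ∀ σ τ : GQ, c₁ (σ * τ) = c₁ σ + σ • c₁ τ := by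
    intro σ τ
    show ρ⁻¹ • c (ρ * (σ * τ) * ρ⁻¹) = ρ⁻¹ • c (ρ * σ * ρ⁻¹) + σ • ρ⁻¹ • c (ρ * τ * ρ⁻¹)
    have e : ρ * (σ * τ) * ρ⁻¹ = (ρ * σ * ρ⁻¹) * (ρ * τ * ρ⁻¹) := by group
    rw [e, hcoc, smul_add, ← mul_smul ρ⁻¹, ← mul_smul σ]
    congr 2
    group
  have hc₁cont : ∃ K' : IntermediateField ℚ Qb, FiniteDimensional ℚ K' ∧
      ∀ σ : GQ, (∀ y ∈ K', σ y = y) → c₁ σ = 0 := by
    refine ⟨K.map (ρ⁻¹ : GQ).toAlgHom, ?_, fun σ hσ => ?_⟩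
    · haveI := hKfin
      exact (IntermediateField.equivMap K (ρ⁻¹ : GQ).toAlgHom).toLinearEquiv.finiteDimensional
    · have h0 : c (ρ * σ * ρ⁻¹) = 0 := by
        apply hK
        intro y hy
        have h1 : σ (ρ⁻¹ y) = ρ⁻¹ y := hσ _ ⟨y, hy, rfl⟩
        show ρ (σ (ρ⁻¹ y)) = y
        rw [h1]
        exact AlgEquiv.apply_symm_apply ρ y
      show ρ⁻¹ • c (ρ * σ * ρ⁻¹) = 0
      rw [h0]
      exact mzf3_ki_smul_zero (J := JZero p) ρ⁻¹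
  obtain ⟨g₁, hg₁W, hg₁⟩ := hmain k c₁ hc₁W hc₁coc hc₁cont
  refine ⟨ρ • g₁, hWs k ρ g₁ hg₁W, fun σ' hσ' => ?_⟩
  have hmem : ρ⁻¹ * σ' * ρ ∈ A.inertiaSubgroupIn ℚ := by
    have h1 := tl_inertia_conj (ρ • A) ρ⁻¹ σ' hσ'
    rwa [inv_smul_smul, inv_inv] at h1
  have h2 := hg₁ _ hmem
  have e : ρ * (ρ⁻¹ * σ' * ρ) * ρ⁻¹ = σ' := by group
  have h3 : c₁ (ρ⁻¹ * σ' * ρ) = ρ⁻¹ • c σ' := by
    show ρ⁻¹ • c (ρ * (ρ⁻¹ * σ' * ρ) * ρ⁻¹) = ρ⁻¹ • c σ'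
    rw [e]
  rw [h3] at h2
  -- apply `ρ`
  have h4 := congrArg (fun x => ρ • x) h2
  simp only [smul_sub] at h4
  rw [mzf3_ki_smul_nsmul (J := JZero p) ρ (r ^ i₀) (ρ⁻¹ • c σ'), smul_inv_smul, ← mul_smul] at h4
  have e2 : ρ * (ρ⁻¹ * σ' * ρ) = σ' * ρ := by group
  rw [e2, mul_smul] at h4
  exact h4

end Fermat.Agent.MZ
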