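/-
MOONSHOT "MAZUR", node (F3) / [MZ-F'] route (B'), cell (K2): THE TORIC INPUT AT PRIME LEVEL `p`.

  `mzf3_tor_main` : for `A | p`, `φ` a Frobenius at `A`, there is `d ≠ 0` such that for all `m` prime
     to `p` and all `z ∈ J₀(p)[m]` fixed by the inertia group `I_A`:
        `d • (φ² - p²)(φ - 1) z = 0`.

Source: the closed PRIMED seam `s35_Geom1 N' q` of project S35 (all `(N', q)`, `q` prime, `q ∤ N'`),
taken at `N' = 1`, `q = p`.  Its two push-forward hypotheses live in `J₀(1) = Pic⁰(ℚ̄(j))`, which is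
trivial:

  `mzf3_tor_principal_of_degree_zero` : (abstract, any function field `F = K(x)` over an algebraically
     closed field of characteristic zero) every divisor of degree zero is principal;
  `mzf3_tor_jzero_one` : `∀ y : JZero 1, y = 0`.

Finally `JZero (1 * p)` is transported to `JZero p` along `Nat.one_mul` (`mzf3_tor_Stmt`).
Prefix `mzf3_tor_`.
-/
import Mathlib
import Fermat.Agent.S35.Final
import Fermat.Agent.S35.ToricInst.LegNF1
import Fermat.Agent.S35.FinalHes.ToricNF1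
import Fermat.Agent.SS2.DescPhi.KeyBar1Leg
import Fermat.Agent.SS2.DescPhi.KeyBar1Hes
import Fermat.Agent.S35.AbelGlue
import Fermat.Agent.S35.SeamsKum1
import Fermat.Agent.JT3.Riemann.FBar

set_option autoImplicit false
set_option linter.unusedSectionVars false
set_option linter.unusedVariables false
set_option linter.style.haveILetI false

noncomputable section

namespace Fermat.Agent.MZ

open AlgebraicCurve IntermediateField Polynomial Fermat.Agent.S24 Fermat.Agent.JT3
open scoped IntermediateField.algebraAdjoinAdjoin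

/-! ### Genus zero: `Pic⁰(K(x)) = 0` -/

section abstract

universe u v
variable {K : Type u} {F : Type v} [Field K] [Field F] [Algebra K F]

/-- A finite sum of positive integers equal to `1` has exactly one term. -/
theorem mzf3_tor_sum_one {α : Type*} (s : Finset α) (f : α → ℤ) (hpos : ∀ a ∈ s, 0 < f a)
    (hsum : ∑ a ∈ s, f a = 1) : ∃ a, s = {a} ∧ f a = 1 := by
  classical
  have hne : s.Nonempty := by
    rw [Finset.nonempty_iff_ne_empty]
    rintro rfl
    simp at hsum
  obtain ⟨a, ha⟩ := hne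
  have h1 : ∑ b ∈ s, f b = f a + ∑ b ∈ s.erase a, f b := (Finset.add_sum_erase s f ha).symm
  have h2 : 0 ≤ ∑ b ∈ s.erase a, f b :=
    Finset.sum_nonneg fun b hb => (hpos b (Finset.mem_of_mem_erase hb)).le
  have h3 := hpos a ha
  have h4 : ∑ b ∈ s.erase a, f b = 0 := by omega
  have h5 : f a = 1 := by omega
  refine ⟨a, ?_, h5⟩
  have h6 : s.erase a = ∅ := by
    by_contra hcon
    obtain ⟨b, hb⟩ := Finset.nonempty_iff_ne_empty.mpr hcon
    have h7 : ∀ c ∈ s.erase a, 0 ≤ f c := fun c hc => (hpos c (Finset.mem_of_mem_erase hc)).le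
    have h8 := Finset.single_le_sum h7 hb
    have h9 := hpos b (Finset.mem_of_mem_erase hb)
    omega
  ext c
  rw [Finset.mem_singleton]
  constructor
  · intro hc
    by_contra hca
    have : c ∈ s.erase a := Finset.mem_erase.mpr ⟨hca, hc⟩
    rw [h6] at this
    simp at this
  · rintro rfl
    exact ha

variable [IsAlgClosed K] [CharZero K] {x : F} (hx : Transcendental K x)
  [FiniteDimensional K⟮x⟯ F] (h1 : Module.finrank K⟮x⟯ F = 1)

include hx h1

/-- the unique pole of `x`, simple -/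
theorem mzf3_tor_pole :
    ∃ vinf : Place K F, vinf.ord x = -1 ∧ ∀ v : Place K F, v.ord x < 0 → v = vinf := by
  obtain ⟨s, hs, hsum⟩ := hw_sum_ord_poles hx
  rw [h1] at hsum
  obtain ⟨a, hsa, ha⟩ := mzf3_tor_sum_one s (fun v => -v.ord x)
    (fun v hv => by have := (hs v).1 hv; omega) (by simp [Finset.sum_neg_distrib, hsum])
  refine ⟨a, by have h : -a.ord x = 1 := ha; omega, fun v hv => ?_⟩
  have := (hs v).2 hv
  rw [hsa, Finset.mem_singleton] at this
  exact this

/-- the unique zero of `x - c`, simple -/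
theorem mzf3_tor_zero (c : K) : ∃ vc : Place K F, vc.ord (x - algebraMap K F c) = 1 ∧
    ∀ v : Place K F, 0 < v.ord (x - algebraMap K F c) → v = vc := by
  obtain ⟨s, hs, hsum⟩ := hw_sum_ord_sub_const hx c
  rw [h1] at hsum
  obtain ⟨a, hsa, ha⟩ := mzf3_tor_sum_one s (fun v => v.ord (x - algebraMap K F c))
    (fun v hv => (hs v).1 hv) (by simp [hsum])
  refine ⟨a, ha, fun v hv => ?_⟩
  have := (hs v).2 hv
  rw [hsa, Finset.mem_singleton] at this
  exact this

/-- for every place `v`, the divisor `v - v∞` is principal (`= div (x - x(v))`) -/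
theorem mzf3_tor_single_sub {vinf : Place K F} (hinf1 : vinf.ord x = -1)
    (hinf : ∀ v : Place K F, v.ord x < 0 → v = vinf) (v : Place K F) :
    Divisor.IsPrincipal (Finsupp.single v (1 : ℤ) - Finsupp.single vinf (1 : ℤ)) := by
  classical
  haveI : Algebra.IsAlgebraic K⟮x⟯ F := Algebra.IsAlgebraic.of_finite _ _
  by_cases hv : v = vinf
  · subst hv
    rw [sub_self]
    exact (Divisor.principal (K := K) (F := F)).zero_mem
  have hvx : ¬ v.ord x < 0 := fun h => hv (hinf v h)
  have hx0 : x ≠ 0 := fun h => hx (h ▸ isAlgebraic_zero)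
  have hxmem : x ∈ v.toValuationSubring := (hw_mem_iff_ord_nonneg v hx0).mpr (not_lt.mp hvx)
  obtain ⟨c, hc | hc⟩ := hw_exists_const x v hxmem
  · exact absurd (hc ▸ (isAlgebraic_algebraMap c : IsAlgebraic K (algebraMap K F c))) hx
  obtain ⟨vc, hvc1, hvc⟩ := mzf3_tor_zero hx h1 c
  have hvvc : v = vc := hvc v hc
  subst hvvc
  have hne : x - algebraMap K F c ≠ 0 := by
    intro h
    rw [h] at hc
    simp at hc
  refine ⟨x - algebraMap K F c, hne, fun w => ?_⟩
  rw [Finsupp.sub_apply]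
  by_cases hwv : w = v
  · subst hwv
    rw [Finsupp.single_apply, Finsupp.single_apply, if_pos rfl, if_neg (Ne.symm hv), hvc1, sub_zero]
  by_cases hwi : w = vinf
  · subst hwi
    rw [Finsupp.single_apply, Finsupp.single_apply, if_neg (Ne.symm hwv), if_pos rfl]
    -- `ord (x - c) = ord x = -1`
    rcases eq_or_ne c 0 with rfl | hc0
    · rw [map_zero, sub_zero, hinf1]; norm_num
    · have hcF : -(algebraMap K F c) ≠ 0 := neg_ne_zero.mpr (by simpa using hc0)
      have hlt : w.ord x < w.ord (-(algebraMap K F c)) := by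
        rw [hw_ord_neg, hw_ord_algebraMap, hinf1]; norm_num
      have := hw_ord_add_eq_of_lt w hx0 hcF hlt
      have e : x - algebraMap K F c = x + -(algebraMap K F c) := sub_eq_add_neg _ _
      rw [e, this, hinf1]; norm_num
  · rw [Finsupp.single_apply, Finsupp.single_apply, if_neg (Ne.symm hwv), if_neg (Ne.symm hwi),
      sub_zero]
    have h2 : ¬ 0 < w.ord (x - algebraMap K F c) := fun h => hwv (hvc w h)
    have h3 : ¬ w.ord x < 0 := fun h => hwi (hinf w h)
    have h4 : x ∈ w.toValuationSubring := (hw_mem_iff_ord_nonneg w hx0).mpr (not_lt.mp h3)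
    have h5 : x - algebraMap K F c ∈ w.toValuationSubring :=
      sub_mem h4 (w.algebraMap_mem' c)
    have h6 := (hw_mem_iff_ord_nonneg w hne).mp h5
    omega

/-- **Genus zero**: if `F = K(x)`, every divisor of degree zero is principal. -/
theorem mzf3_tor_principal_of_degree_zero (D : Divisor K F) (hD : Divisor.degree D = 0) :
    Divisor.IsPrincipal D := by
  classical
  haveI : Algebra.IsAlgebraic K⟮x⟯ F := Algebra.IsAlgebraic.of_finite _ _
  obtain ⟨vinf, hinf1, hinf⟩ := mzf3_tor_pole hx h1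
  have hsum : ∑ v ∈ D.support, D v = 0 := by
    rw [← hw_degree_eq_sum x D D.support (Finset.Subset.refl _)]
    exact hD
  have hD' : D =
      ∑ v ∈ D.support, D v • (Finsupp.single v (1 : ℤ) - Finsupp.single vinf (1 : ℤ)) := by
    have e1 : ∀ v ∈ D.support, D v • (Finsupp.single v (1 : ℤ) - Finsupp.single vinf (1 : ℤ)) =
        Finsupp.single v (D v) - D v • Finsupp.single vinf (1 : ℤ) := by
      intro v _
      rw [smul_sub, Finsupp.smul_single, smul_eq_mul, mul_one]
    rw [Finset.sum_congr rfl e1, Finset.sum_sub_distrib, ← Finset.sum_smul, hsum, zero_smul,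
      sub_zero]
    exact (Finsupp.sum_single D).symm
  rw [hD']
  exact (Divisor.principal (K := K) (F := F)).sum_mem fun v _ =>
    (Divisor.principal (K := K) (F := F)).zsmul_mem (mzf3_tor_single_sub hx h1 hinf1 hinf v) _

/-- **Genus zero**: if `F = K(x)`, `Pic⁰(F) = 0`. -/
theorem mzf3_tor_pic0_eq_zero (y : Pic0 K F) : y = 0 := by
  obtain ⟨D, rfl⟩ := Pic0.mk_surjective y
  refine (QuotientAddGroup.eq_zero_iff _).2 ?_
  rw [AddSubgroup.mem_addSubgroupOf]
  exact mzf3_tor_principal_of_degree_zero hx h1 (D : Divisor K F) D.2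

end abstract

/-! ### Level one -/

open scoped MatrixGroups in
/-- `[SL₂(ℤ) : Γ₀(1)] = 1`. -/
theorem mzf3_tor_psi_one : br_psi 1 = 1 := by
  have h0 : CongruenceSubgroup.Gamma0 1 = ⊤ := by
    ext A
    simp only [CongruenceSubgroup.Gamma0_mem, Subgroup.mem_top, iff_true]
    exact Subsingleton.elim _ _
  rw [br_psi, ← Subgroup.index_eq_card, G0, h0, ← MonoidHom.range_eq_map,
    Subgroup.subgroupOf_self, Subgroup.index_top]

/-- `[Fbar 1 : ℚ̄(j)] = 1`. -/
theorem mzf3_tor_finrank_one : Module.finrank Kbar⟮br_jBar 1⟯ (Fbar 1) = 1 := by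
  have h1 := (br_finrank_le 1).2
  rw [mzf3_tor_psi_one] at h1
  have h2 : 0 < Module.finrank Kbar⟮br_jBar 1⟯ (Fbar 1) := Module.finrank_pos
  omega

/-- **`J₀(1) = 0`.** -/
theorem mzf3_tor_jzero_one (y : ModularCurve.JZero 1) : y = 0 :=
  mzf3_tor_pic0_eq_zero (K := Kbar) (F := Fbar 1) (br_jBar_transcendental 1) mzf3_tor_finrank_one y

/-! ### The toric input -/

open Fermat.Agent.S35 Fermat.Agent.SS ModularCurve

local notation "GQ" => (AlgebraicClosure ℚ ≃ₐ[ℚ] AlgebraicClosure ℚ)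

/-- the statement, at a level `M` (to transport along `1 * p = p`) -/
def mzf3_tor_Stmt (M p : ℕ) : Prop :=
  ∀ A : ValuationSubring (AlgebraicClosure ℚ), A.LiesOverPrime p →
    ∀ φ : GQ, A.IsFrobeniusAt φ p → ∃ d : ℕ, d ≠ 0 ∧ ∀ m : ℕ, ¬ p ∣ m →
      ∀ z : JZero M, m • z = 0 → (∀ s ∈ A.inertiaSubgroupIn ℚ, s • z = z) →
        d • (φ • (φ • (φ • z - z)) - (p ^ 2) • (φ • z - z)) = 0

/-- the primed Kummer seam of S35 at `(1, p)` (closed on main). -/
theorem mzf3_tor_keyBar1 (p : ℕ) [NeZero p] (hp : p.Prime) : s35_KeyBar1 1 p :=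
  s35_keyBar1_of_cores
    (fun N q _ _ _ hq2 hqN h => Fermat.Agent.SS2.ss2_dp_keyBar1 N q hq2 hqN h)
    (fun N q _ _ _ hq3 hqN h => Fermat.Agent.SS2.ss2_dp_keyBar1_hes N q hq3 hqN h)
    (fun N q _ _ _ hq2 hqN =>
      s35_coreNF1_of N q hq2 hqN (s35as_abelNF1_leg N q hq2 hqN (s35ag_famLeg N q hq2))
        (s35ti_leg_toricNF1 N q hq2 hqN))
    (fun N q _ _ _ hq3 hqN =>
      s35h_coreNF1_of N q hq3 hqN (s35as_abelNF1_hes N q hq3 hqN (s35ag_famHes N q hq3))
        (s35fh_toricNF1 N q hq3 hqN))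
    1 p hp (fun h => hp.one_lt.ne' (Nat.dvd_one.mp h))

theorem mzf3_tor_stmt_one_mul (p : ℕ) [NeZero p] (hp : p.Prime) : mzf3_tor_Stmt (1 * p) p := by
  intro A hA φ hφ
  obtain ⟨d, hd, H⟩ :=
    s35sk1_geom_of_geom1 1 p (s35sk1_geom1_of_keyBar1 1 p (mzf3_tor_keyBar1 p hp)) A hA φ hφ
  exact ⟨d, hd, fun m hm z hmz hfix =>
    H m hm z hmz hfix (mzf3_tor_jzero_one _) (mzf3_tor_jzero_one _)⟩

theorem mzf3_tor_stmt (p : ℕ) [NeZero p] (hp : p.Prime) : mzf3_tor_Stmt p p := by
  have h := mzf3_tor_stmt_one_mul p hp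
  rwa [Nat.one_mul] at h

/-- **(K2), the toric input at level `p`**: `d (φ² - p²)(φ - 1) z = 0` on the `I_A`-fixed prime-to-`p`
torsion of `J₀(p)`, `d` independent of the order. -/
theorem mzf3_tor_main (p : ℕ) [NeZero p] (hp : p.Prime) (A : ValuationSubring (AlgebraicClosure ℚ))
    (hA : A.LiesOverPrime p) (φ : GQ) (hφ : A.IsFrobeniusAt φ p) :
    ∃ d : ℕ, d ≠ 0 ∧ ∀ m : ℕ, ¬ p ∣ m → ∀ z : ModularCurve.JZero p, m • z = 0 →
      (∀ s ∈ A.inertiaSubgroupIn ℚ, s • z = z) →
      d • (φ • (φ • (φ • z - z)) - (p ^ 2) • (φ • z - z)) = 0 :=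
  mzf3_tor_stmt p hp A hA φ hφ

end Fermat.Agent.MZ
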