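/-
MAZUR project (S15), node [MZ-F'] route (B') (owner helper14): THE CLOSED FORM.  Prefix `mzf3_`.

`mzf3_final` = (F'-coh): for `p` prime, `r ≠ p` prime, `W k ≤ J₀(p)[r ^ k]` a family of `G_ℚ`-stable
subgroups satisfying the count (CNT-I) at ONE place `A` over `p`, there is `i₀` such that for every
`k`, every continuous cocycle `c : G_ℚ → W k` and EVERY place `A'` over `p`, the cocycle `r ^ i₀ • c`
restricted to the inertia group of `A'` is a coboundary of `W k`.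

The toric clause is helper26's `mzf3_tor_main` (S35 primed seam at level `1 * p`), the rest is
`mzf3_ki_all` ((A1) `mzf3_unip`, (A2) `mzf3_cyclic'`, tame Frobenius `mzf3_tfa_exists`, the abstract
cocycle lemma `mzf3_coc_main`, the count `mzf3_cnt_exp`).
-/
import Mathlib
import Fermat.Agent.MZ.F3.Toric
import Fermat.Agent.MZ.F3.KummerInertiaAll

set_option autoImplicit false

noncomputable section

namespace Fermat.Agent.MZ

open ModularCurve

local notation "Qb" => AlgebraicClosure ℚ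
local notation "GQ" => (AlgebraicClosure ℚ ≃ₐ[ℚ] AlgebraicClosure ℚ)

/-- **[MZ-F'], closed form.** -/
theorem mzf3_final (p : ℕ) [NeZero p] (hp : p.Prime) (r : ℕ) (hr : r.Prime) (hrp : r ≠ p)
    (A : ValuationSubring Qb) (hA : A.LiesOverPrime p)
    (W : ℕ → AddSubgroup (JZero p)) (hWt : ∀ k, ∀ x ∈ W k, r ^ k • x = 0)
    (hWs : ∀ k (σ : GQ), ∀ x ∈ W k, σ • x ∈ W k)
    (C : ℕ)
    (hcnt : ∀ k, Nat.card {x : ↥(W k) // ∀ σ ∈ A.inertiaSubgroupIn ℚ, σ • (x : JZero p) = x} ^ 2 ≤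
      C * Nat.card ↥(W k)) :
    ∃ i₀ : ℕ, ∀ k : ℕ, ∀ c : GQ → JZero p, (∀ σ, c σ ∈ W k) →
      (∀ σ τ : GQ, c (σ * τ) = c σ + σ • c τ) →
      (∃ K : IntermediateField ℚ Qb, FiniteDimensional ℚ K ∧
        ∀ σ : GQ, (∀ y ∈ K, σ y = y) → c σ = 0) →
      ∀ A' : ValuationSubring Qb, A'.LiesOverPrime p →
        ∃ g ∈ W k, ∀ σ ∈ A'.inertiaSubgroupIn ℚ, r ^ i₀ • c σ = σ • g - g :=
  mzf3_ki_all p hp r hr hrp A hA (fun φ hφ => mzf3_tor_main p hp A hA φ hφ) W hWt hWs C hcnt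

end Fermat.Agent.MZ
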