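/-
MAZUR project (S15), node [MZ-F'] (helper14): THE SEAM `mzs_lc_Fcoh` CLOSED.
Prefix `mzf3_fc_`.

`mzf3_final` (`MZ/F3/Final.lean`) + (CNT-I) `mzds_cb_cnt` (`MZ/Desc/CntBot.lean`, helper9) +
(F2) `mzf2k_in_main'` (`MZ/F2/ConjCount.lean`, helper12) give, with NO hypothesis left,

  `mzf3_fc_main : ∃ i₀, mzs_lc_Fcoh p r S i₀ A`        (`A ∣ p`, `p ≥ 5` prime, `r ≠ p` prime, `p, r ∈ S`)

which is the hypothesis `hF` of `mzs_sa_sel` (`MZ/S/SelAsm.lean`).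

* `mzf3_fc_F2`   : `|W_k| ≤ |H⁰(⟨c⟩, W_k)|²` in the `mzh_H0 ↥(Subgroup.zpowers c)` spelling
                   (`c = complexConjugation`), the hypothesis `hF2` of `mzds_cb_cnt`;
* `mzf3_fc_cnt`  : (CNT-I) closed;
* `mzf3_fc_main` : the seam.
-/
import Mathlib
import Fermat.Agent.MZ.F3.Final
import Fermat.Agent.MZ.Desc.CntBot
import Fermat.Agent.MZ.F2.ConjCount
import Fermat.Agent.MZ.F2.ConjCyc
import Fermat.Agent.MZ.S.Local

set_option autoImplicit false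
set_option linter.unusedSectionVars false
set_option linter.style.haveILetI false

noncomputable section

namespace Fermat.Agent.MZ

open ModularCurve AlgebraicCurve Fermat.Agent.JT3

local notation "Qb" => AlgebraicClosure ℚ
local notation "GQ" => (AlgebraicClosure ℚ ≃ₐ[ℚ] AlgebraicClosure ℚ)

variable {p : ℕ} [NeZero p]

attribute [local instance] mzds_cb_act

/-- **(F2)** in the `mzh_H0 ↥(Subgroup.zpowers c)` spelling. -/
theorem mzf3_fc_F2 (hp : p.Prime) (hp5 : 5 ≤ p) (r : ℕ) [hr : Fact r.Prime] (S : Finset ℕ)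
    (hpS : p ∈ S) (hrS : r ∈ S) (k : ℕ) :
    Nat.card ↥(mzs_in_W p r S k) ≤
      Nat.card ↥(mzh_H0 ↥(Subgroup.zpowers (complexConjugation : GQ)) ↥(mzs_in_W p r S k)) ^ 2 := by
  have h1 := mzf2k_in_main' p r S hp hp5 hpS hrS k
  have h2 := mzf3_cb_card (Γ := GQ) (mzs_in_W p r S k) (fun _ _ => rfl)
    (Subgroup.zpowers (complexConjugation : GQ))
  rw [h2]
  have h3 : Nat.card ↥(mzf2k_in_fix p r S k) =
      Nat.card {x : ↥(mzs_in_W p r S k) //
        ∀ σ ∈ Subgroup.zpowers (complexConjugation : GQ), σ • (x : JZero p) = x} := by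
    refine Nat.card_congr
      { toFun := fun y => ⟨⟨y.1, y.2.1⟩, fun σ hσ => ?_⟩
        invFun := fun x => ⟨x.1.1, x.1.2, x.2 _ (Subgroup.mem_zpowers _)⟩
        left_inv := fun y => rfl
        right_inv := fun x => rfl }
    obtain ⟨n, rfl⟩ := Subgroup.mem_zpowers_iff.mp hσ
    have hfix : (complexConjugation : GQ) • (y.1 : JZero p) = y.1 := y.2.2
    have hmem : (complexConjugation : GQ) ∈ MulAction.stabilizer GQ (y.1 : JZero p) :=
      MulAction.mem_stabilizer_iff.mpr hfix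
    exact MulAction.mem_stabilizer_iff.mp (Subgroup.zpow_mem _ hmem n)
  rw [← h3]
  exact h1

/-- **(CNT-I)** closed: the hypothesis `hcnt` of `mzf3_final` for `W := mzs_in_W p r S`. -/
theorem mzf3_fc_cnt (hp : p.Prime) (hp5 : 5 ≤ p) (r : ℕ) [hr : Fact r.Prime] (hrp : r ≠ p)
    (S : Finset ℕ) (hpS : p ∈ S) (hrS : r ∈ S)
    (A : ValuationSubring Qb) (hA : A.LiesOverPrime p) (k : ℕ) :
    Nat.card {x : ↥(mzs_in_W p r S k) // ∀ σ ∈ A.inertiaSubgroupIn ℚ,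
        σ • (x : JZero p) = x} ^ 2 ≤
      mzs_sl_C0 GQ (JZero p) ^ 2 * Nat.card ↥(mzs_in_W p r S k) :=
  mzds_cb_cnt hp hp5 r hrp S hpS hrS A hA
    (complexEmbedding : Qb →ₐ[ℚ] ℂ).toRingHom complexConjugation mzf2cc_isConj_ringHom
    (mzf3_fc_F2 hp hp5 r S hpS hrS) k

/-- **The seam `mzs_lc_Fcoh`**, closed. -/
theorem mzf3_fc_main (hp : p.Prime) (hp5 : 5 ≤ p) (r : ℕ) [hr : Fact r.Prime] (hrp : r ≠ p)
    (S : Finset ℕ) (hpS : p ∈ S) (hrS : r ∈ S)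
    (A : ValuationSubring Qb) (hA : A.LiesOverPrime p) :
    ∃ i₀ : ℕ, mzs_lc_Fcoh p r S i₀ A := by
  obtain ⟨i₀, h⟩ := mzf3_final p hp r hr.out hrp A hA (mzs_in_W p r S)
    (fun k x hx => ((mzs_in_mem_W p r S k x).1 hx).1) (mzs_fl_stable p r S) _
    (mzf3_fc_cnt hp hp5 r hrp S hpS hrS A hA)
  refine ⟨i₀, fun k c hcW hcoc hcont => ?_⟩
  obtain ⟨K, hK, hKc⟩ := hcont
  exact h k c hcW hcoc
    ⟨K, hK, fun σ hσ => hKc σ ((IntermediateField.mem_fixingSubgroup_iff K σ).mpr hσ)⟩ A hA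

end Fermat.Agent.MZ
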