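/-
MAZUR project (S15), (F-ASM) final instantiation, BACKUP SUPPLIER (helper14).  Prefix `mzf3_sf_`.

Everything below is wiring of closed nodes:

* `mzf3_sf_bound` : `mzs_sa_Bound p r S Ap Ar complexConjugation k`
    = `mzds_bound_series` ([F-DESC] v2, helper9) with `hser := mzs_ei_series` ((F1)),
      `hctx := mzg_ctx` ([GEO]), `hF3 := mzf3_ci_card` ((F3)), `hF2 := mzf3_fc_F2` ((F2), helper12);
* `mzf3_sf_SEL`   : `mzs_in_SEL p r S₀`  (`p ≥ 5` prime, `r ≠ p` prime)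
    = `mzs_sa_sel` (helper15) with `hF := mzf3_fc_main` ([MZ-F']), `hB := mzf3_sf_bound`;
* `mzf3_sf_hsel`  : the hypothesis `hsel` of `mzs_in_F`;
* `mzf3_sf_F`     : `mzt_C_stmt C → mzt_F_stmt C`   (the seam (F*) of TOP).
-/
import Mathlib
import Fermat.Agent.MZ.F3.Fcoh
import Fermat.Agent.MZ.F3.CountInertia
import Fermat.Agent.MZ.S.SelAsm
import Fermat.Agent.MZ.S.Inst
import Fermat.Agent.MZ.S.Eis
import Fermat.Agent.MZ.Top.Asm

set_option autoImplicit false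
set_option linter.unusedSectionVars false
set_option linter.style.haveILetI false
set_option synthInstance.maxHeartbeats 400000
set_option maxHeartbeats 1000000

noncomputable section

namespace Fermat.Agent.MZ

open ModularCurve AlgebraicCurve Fermat.Agent.JT3 Fermat.Agent.FF

local notation "Qb" => AlgebraicClosure ℚ
local notation "GQ" => (AlgebraicClosure ℚ ≃ₐ[ℚ] AlgebraicClosure ℚ)

variable {p : ℕ} [NeZero p]

attribute [local instance] mzds_cb_act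

/-- **(F3)** in the `mzh_H0` spelling: `|W_k| ≤ |H⁰(I_{Ap}, W_k)|²`. -/
theorem mzf3_sf_F3 (hp : p.Prime) (r : ℕ) [hr : Fact r.Prime] (hrp : r ≠ p) (S : Finset ℕ)
    (Ap : ValuationSubring Qb) (hAp : Ap.LiesOverPrime p) (k : ℕ) :
    Nat.card ↥(mzs_in_W p r S k) ≤
      Nat.card ↥(mzh_H0 ↥(Ap.inertiaSubgroupIn ℚ) ↥(mzs_in_W p r S k)) ^ 2 := by
  rw [mzf3_cb_card (Γ := GQ) (mzs_in_W p r S k) (fun _ _ => rfl) (Ap.inertiaSubgroupIn ℚ)]
  refine mzf3_ci_card p p hp (dvd_refl p) ?_ Ap hAp r hr.out hrp k (mzs_in_W p r S k)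
    (fun x hx => ((mzs_in_mem_W p r S k x).1 hx).1) (mzs_fl_stable p r S k)
  intro h
  have h1 : p ^ 2 ≤ p := Nat.le_of_dvd hp.pos h
  have h2 := hp.two_le
  nlinarith

/-- **the Selmer bound for `W_k`**, closed. -/
theorem mzf3_sf_bound (hp : p.Prime) (hp5 : 5 ≤ p) (r : ℕ) [hr : Fact r.Prime] (hrp : r ≠ p)
    (S : Finset ℕ) (hpS : p ∈ S) (hrS : r ∈ S)
    (Ap Ar : ValuationSubring Qb) (hAp : Ap.LiesOverPrime p) (hAr : Ar.LiesOverPrime r) (k : ℕ) :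
    mzs_sa_Bound p r S Ap Ar complexConjugation k := by
  haveI : NeZero r := ⟨hr.out.ne_zero⟩
  haveI := mzg_ctx_dvr r Ar hAr
  intro L hL1 hL2 hL3 hL4 hL5
  exact mzds_bound_series p r hp hr.out hrp Ap Ar hAp hAr
    (complexEmbedding : Qb →ₐ[ℚ] ℂ).toRingHom complexConjugation mzf2cc_isConj_ringHom
    (mzs_in_W p r S k) (mzs_ei_series p hp r S hpS hrS k) (fun _ _ => rfl)
    (O := ↥(ffi_O Ar ↥(ffi_L Ar))) (mzg_ctx r Ar hAr)
    (fun g => by
      obtain ⟨K, hK, hKg⟩ := mzs_ku_smooth p (g : JZero p)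
      exact ⟨K, hK, fun σ hσ => Subtype.ext (sub_eq_zero.mp (hKg σ hσ))⟩)
    L hL1 hL2 hL3 hL4 hL5
    (mzf3_sf_F3 hp r hrp S Ap hAp k) (mzf3_fc_F2 hp hp5 r S hpS hrS k)

/-- **the Selmer seam `mzs_in_SEL`**, closed. -/
theorem mzf3_sf_SEL (hp : p.Prime) (hp5 : 5 ≤ p) (r : ℕ) (hr : r.Prime) (hrp : r ≠ p)
    (S₀ : Finset ℕ) : mzs_in_SEL p r S₀ := by
  haveI : Fact r.Prime := ⟨hr⟩
  obtain ⟨Ap, hAp⟩ := mzt_exists_place p hp
  obtain ⟨Ar, hAr⟩ := mzt_exists_place r hr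
  set S : Finset ℕ := insert p (insert r S₀) with hS
  have hpS : p ∈ S := Finset.mem_insert_self _ _
  have hrS : r ∈ S := Finset.mem_insert_of_mem (Finset.mem_insert_self _ _)
  have hS₀ : S₀ ⊆ S := fun x hx => Finset.mem_insert_of_mem (Finset.mem_insert_of_mem hx)
  obtain ⟨i₀, hF⟩ := mzf3_fc_main hp hp5 r hrp S hpS hrS Ap hAp
  exact mzs_sa_sel p hp hp5 r hrp S hpS hrS S₀ hS₀ Ap Ar hAr mzt_exists_place
    complexConjugation mzf2cc_mul_self i₀ hF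
    (fun k => mzf3_sf_bound hp hp5 r hrp S hpS hrS Ap Ar hAp hAr k)

/-- the hypothesis `hsel` of `mzs_in_F`. -/
theorem mzf3_sf_hsel (p : ℕ) [NeZero p] (hp : p.Prime)
    (hp' : p ∉ ({2, 3, 5, 7, 13} : Finset ℕ)) (r : ℕ) (hr : r.Prime) (hrp : r ∣ p - 1)
    (S₀ : Finset ℕ) : mzs_in_SEL p r S₀ := by
  have hp5 : 5 ≤ p := by
    have h2 : p ≠ 2 := fun h => hp' (by rw [h]; decide)
    have h3 : p ≠ 3 := fun h => hp' (by rw [h]; decide)
    have h4 : p ≠ 4 := fun h => by rw [h] at hp; exact absurd hp (by decide)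
    have := hp.two_le
    omega
  have hne : r ≠ p := by
    intro h
    have h1 : r ≤ p - 1 := Nat.le_of_dvd (by omega) hrp
    omega
  exact mzf3_sf_SEL hp hp5 r hr hne S₀

/-- **(F\*)**: the seam `mzt_F_stmt` of TOP from the cuspidal seam. -/
theorem mzf3_sf_F (C : ∀ p : ℕ, mzt_Cusps p) (hC : mzt_C_stmt C) : mzt_F_stmt C :=
  mzs_in_F C hC (fun p _ hp hp' r hr hrp S₀ => mzf3_sf_hsel p hp hp' r hr hrp S₀)

end Fermat.Agent.MZ
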